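import Fermat.Agent.S37.Along
import Fermat.Agent.GAL.Hecke.Degree
import Fermat.Agent.GAL.Tors.Desc.IsFF
import Fermat.Prelude.Def_ModularCurve_HeckeModule

/-!
# S37, leaf H3: `HeckeInputsAlong`, the Hecke correspondence on divisors.
-/

set_option autoImplicit false

namespace Fermat.Agent.S37

open AlgebraicCurve ModularCurve Fermat.Agent.Lib.RR Fermat.Agent.GAL Fermat.Agent.GAL.Hecke
  Fermat.Agent.S24

instance instIsFFFN (N : ℕ) [NeZero N] : Lib.RR.IsFF Kbar (FN N) := Fermat.Agent.GAL.Desc.isFF_FF_Kbar N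

section HeckeDivAux

variable {K F F' : Type*} [Field K] [IsAlgClosed K] [CharZero K] [Field F] [Field F'] [Algebra K F]
  [Algebra K F'] [Lib.RR.IsFF K F] [Lib.RR.IsFF K F']

omit [IsAlgClosed K] [CharZero K] [Lib.RR.IsFF K F] [Lib.RR.IsFF K F'] in
theorem HeckeDiv_normAlong_ne_zero (φ : F →ₐ[K] F') (hfin : FiniteAlong K φ) {u : F'}
    (hu : u ≠ 0) : normAlong φ u ≠ 0 := by
  letI := algebraAlong φ
  haveI : Module.Finite F F' := hfin
  exact Algebra.norm_ne_zero_iff.mpr hu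

theorem HeckeDiv_finite_aux (φ ψ : F →ₐ[K] F') (hφ : φ.toRingHom.IsIntegral)
    (hψ : ψ.toRingHom.IsIntegral) (y : Place K F) :
    {P : Place K F |
      Divisor.pushforwardAlong ψ hψ (Divisor.pullbackAlong φ hφ (pt P)) y ≠ 0}.Finite := by
  classical
  refine ((finite_pushforwardAlong_pt_apply_ne_zero ψ hψ y).image
    (fun w => w.restrictAlong φ hφ)).subset ?_
  intro P hP
  simp only [Set.mem_setOf_eq] at hP
  set D' := Divisor.pullbackAlong φ hφ (pt P) with hD'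
  have h1 : Divisor.pushforwardAlong ψ hψ D'
      = ∑ W ∈ D'.support, D' W • Divisor.pushforwardAlong ψ hψ (pt W) := by
    conv_lhs => rw [← Finsupp.sum_single D']
    rw [Finsupp.sum, map_sum]
    refine Finset.sum_congr rfl fun W _ => ?_
    rw [← map_zsmul]
    congr 1
    rw [Finsupp.smul_single, smul_eq_mul, mul_one]
  rw [h1, Finsupp.finset_sum_apply] at hP
  obtain ⟨W, hW, hne⟩ := Finset.exists_ne_zero_of_sum_ne_zero hP
  refine ⟨W, ?_, pullbackAlong_pt_apply_ne_zero φ hφ P W (Finsupp.mem_support_iff.mp hW)⟩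
  intro h0
  apply hne
  rw [Finsupp.smul_apply, h0, smul_zero]

end HeckeDivAux

/-! ### the Hecke correspondence (leaf H3) -/

variable (N ℓ : ℕ) [NeZero N] [NeZero ℓ]

theorem heckeInputsAlong : HeckeInputsAlong Kbar N ℓ :=
  heckeInputsAlong_intro (integral_alpha N ℓ) (integral_beta N ℓ)
    (fundamentalIdentityAlong _ _ (finiteAlong_beta N ℓ)) (finiteAlong_alpha N ℓ)
    (normFormulaAlong _ _)

/-- `T_ℓ = α_* β^*` on divisors of level `N`. -/
noncomputable def heckeDiv : Divisor Kbar (FN N) →+ Divisor Kbar (FN N) :=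
  heckeDivBar (integral_alpha N ℓ) (integral_beta N ℓ)

theorem heckeDiv_apply (D : Divisor Kbar (FN N)) :
    heckeDiv N ℓ D = Divisor.pushforwardAlong (heckeAlphaBar Kbar N ℓ) (integral_alpha N ℓ)
      (Divisor.pullbackAlong (heckeBetaBar Kbar N ℓ) (integral_beta N ℓ) D) := rfl

theorem heckeDiv_nonneg {D : Divisor Kbar (FN N)} (h : 0 ≤ D) : 0 ≤ heckeDiv N ℓ D := by
  rw [heckeDiv_apply]
  exact pushforwardAlong_nonneg _ _ (pullbackAlong_nonneg _ _ h)

theorem heckeDiv_mem_degZero {D : Divisor Kbar (FN N)}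
    (h : D ∈ Divisor.degZero (K := Kbar) (F := FN N)) :
    heckeDiv N ℓ D ∈ Divisor.degZero (K := Kbar) (F := FN N) :=
  Divisor.correspondence_mem_degZero _ _ _ _
    (fundamentalIdentityAlong _ _ (finiteAlong_beta N ℓ)) h

theorem heckeOperatorAlong_mk (D : Divisor.degZero (K := Kbar) (F := FN N)) :
    heckeOperatorAlong Kbar N ℓ (Pic0.mk D) =
      Pic0.mk ⟨heckeDiv N ℓ D, heckeDiv_mem_degZero N ℓ D.2⟩ := by
  rw [heckeOperatorAlong_eq (integral_alpha N ℓ) (integral_beta N ℓ)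
    (fundamentalIdentityAlong _ _ (finiteAlong_beta N ℓ)) (finiteAlong_alpha N ℓ)
    (normFormulaAlong _ _)]
  rfl

theorem divOf_heckeNorm (u : FN N) (hu : u ≠ 0) :
    heckeNorm Kbar N ℓ u ≠ 0 ∧ divOf (K := Kbar) (heckeNorm Kbar N ℓ u) = heckeDiv N ℓ (divOf u) := by
  have hβu : heckeBetaBar Kbar N ℓ u ≠ 0 := (map_ne_zero (heckeBetaBar Kbar N ℓ)).mpr hu
  have h1 : heckeNorm Kbar N ℓ u = normAlong (heckeAlphaBar Kbar N ℓ) (heckeBetaBar Kbar N ℓ u) := rfl
  refine ⟨?_, ?_⟩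
  · rw [h1]
    exact HeckeDiv_normAlong_ne_zero _ (finiteAlong_alpha N ℓ) hβu
  · rw [h1, heckeDiv_apply, pullbackAlong_divOf,
      pushforwardAlong_divOf _ _ (finiteAlong_alpha N ℓ) _ hβu]

theorem finite_heckeDiv_pt_apply_ne_zero (y : Place Kbar (FN N)) :
    {P : Place Kbar (FN N) | heckeDiv N ℓ (pt P) y ≠ 0}.Finite :=
  HeckeDiv_finite_aux (heckeBetaBar Kbar N ℓ) (heckeAlphaBar Kbar N ℓ) (integral_beta N ℓ)
    (integral_alpha N ℓ) y

end Fermat.Agent.S37
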