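import Fermat.Agent.GAL.RED.Curve

/-!
# S37, leaf P1: base point freeness.
-/

set_option autoImplicit false

namespace Fermat.Agent.S37

open AlgebraicCurve Fermat.Agent.Lib.RR Fermat.Agent.GAL.RED

variable {K F : Type*} [Field K] [Field F] [Algebra K F] [IsFF K F] [IsAlgClosed K]

/-- For `deg D ≥ 2g` no place is a base point of `|D|`. -/
theorem exists_ord_eq (D : Divisor K F) (hD : 2 * (genusFF K F : ℤ) ≤ Divisor.degree D)
    (Q : Place K F) : ∃ h ∈ riemannRochSpace D, h ≠ 0 ∧ Q.ord h = -D Q := by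
  have h1 : (ell D : ℤ) = Divisor.degree D + 1 - genusFF K F :=
    ell_eq_of_lt_degree' (by linarith)
  have hdeg : Divisor.degree (D - pt Q) = Divisor.degree D - 1 := by
    rw [map_sub, degree_pt, deg_eq_one]
    simp
  have h2 : (ell (D - pt Q) : ℤ) = Divisor.degree (D - pt Q) + 1 - genusFF K F :=
    ell_eq_of_lt_degree' (by rw [hdeg]; linarith)
  rw [hdeg] at h2
  have hlt : ell (D - pt Q) < ell D := by
    have : (ell (D - pt Q) : ℤ) < ell D := by linarith
    exact_mod_cast this
  have hle : riemannRochSpace (D - pt Q) ≤ riemannRochSpace D := by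
    apply L_mono
    intro P
    rw [Finsupp.sub_apply]
    have : 0 ≤ pt Q P := by
      unfold pt
      rcases eq_or_ne P Q with rfl | hPQ
      · rw [Finsupp.single_eq_same]; exact zero_le_one
      · rw [Finsupp.single_eq_of_ne hPQ]
    omega
  have hne : ¬ riemannRochSpace D ≤ riemannRochSpace (D - pt Q) := by
    intro hcon
    have := Submodule.finrank_mono hcon
    unfold ell at hlt
    omega
  obtain ⟨h, hh, hh'⟩ := Set.not_subset.1 hne
  have h0 : h ≠ 0 := by
    rintro rfl
    exact hh' (Submodule.zero_mem _)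
  refine ⟨h, hh, h0, ?_⟩
  have hall : ∀ P : Place K F, -D P ≤ P.ord h := by
    intro P
    rcases (mem_riemannRochSpace_iff.1 hh) P with h' | h'
    · exact absurd h' h0
    · exact h'
  by_contra hcon
  apply hh'
  show h ∈ riemannRochSpace (D - pt Q)
  rw [mem_riemannRochSpace_iff]
  intro P
  right
  rcases eq_or_ne P Q with rfl | hPQ
  · rw [Finsupp.sub_apply, pt, Finsupp.single_eq_same]
    have := hall P
    omega
  · rw [Finsupp.sub_apply, pt, Finsupp.single_eq_of_ne hPQ, sub_zero]
    exact hall P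

/-- (P1) For `deg D ≥ 2g` the linear system `|D|` has a member avoiding a given finite set.

Proof. `V := L(D) ≠ 0`. For each `P`: `ℓ(D - P) = ℓ(D) - 1` (`ell_eq_of_lt_degree'`, degrees
`> 2g - 2`), so some `h ∈ L(D)` has `ord_P h = - D P`. By `exists_genDiv` + `genDiv_unique` the
divisor generated by `L(D)` is `D`, and `exists_genDiv` gives `f ∈ L(D)`, `f ≠ 0`, with
`ord_P f = - D P` for all `P ∈ Z`. -/
theorem exists_avoid (D : Divisor K F) (hD : 2 * (genusFF K F : ℤ) ≤ Divisor.degree D)
    (Z : Finset (Place K F)) :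
    ∃ f : F, f ≠ 0 ∧ 0 ≤ D + divOf f ∧ ∀ P ∈ Z, (D + divOf f : Divisor K F) P = 0 := by
  classical
  have : Infinite (Place K F) := infinite_place
  obtain ⟨Q₀⟩ : Nonempty (Place K F) := inferInstance
  have hV : riemannRochSpace D ≠ ⊥ := by
    obtain ⟨h, hh, h0, -⟩ := exists_ord_eq D hD Q₀
    intro hbot
    rw [hbot, Submodule.mem_bot] at hh
    exact h0 hh
  obtain ⟨B, hB1, hB2⟩ := exists_genDiv (riemannRochSpace D) hV
  have hBD : B = D := by
    refine genDiv_unique (riemannRochSpace D) hB1 (fun Q => ?_) le_rfl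
      (fun Q => exists_ord_eq D hD Q)
    obtain ⟨h, hh, h0, hQ⟩ := hB2 {Q}
    exact ⟨h, hh, h0, hQ Q (Finset.mem_singleton_self Q)⟩
  subst hBD
  obtain ⟨f, hf, f0, hfZ⟩ := hB2 Z
  refine ⟨f, f0, ?_, fun P hP => ?_⟩
  · rcases mem_L_iff.1 hf with h | h
    · exact absurd h f0
    · rwa [add_comm] at h
  · rw [Finsupp.add_apply, divOf_apply, hfZ P hP]
    omega

/-- (P1) `L(B)` determines `B` for `deg B ≥ 2g`. -/
theorem eq_of_L_eq {B B' : Divisor K F} (hB : 2 * (genusFF K F : ℤ) ≤ Divisor.degree B)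
    (hB' : 2 * (genusFF K F : ℤ) ≤ Divisor.degree B')
    (h : riemannRochSpace B = riemannRochSpace B') : B = B' := by
  refine genDiv_unique (riemannRochSpace B) le_rfl (fun Q => exists_ord_eq B hB Q) h.le
    (fun Q => ?_)
  rw [h]
  exact exists_ord_eq B' hB' Q

end Fermat.Agent.S37
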