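import Fermat.Prelude.Def_ModularCurve_X0ModL
import Fermat.Prelude.Def_ModularCurve_ArithmeticGalois

/-!
# S37: coefficientwise automorphisms of `modularFunctionFieldFullC k M`.

For a field `k` and `τ : k ≃+* k` the map `coeffMap τ` on `k((q))` preserves
`modularFunctionFieldFullC k M = k(j(q^d) : d ∣ M)` (the generators have coefficients in the prime
ring).  This gives a monoid homomorphism
`coeffAut k M : RingAut k →* SemilinearAut k (modularFunctionFieldFullC k M)`.
-/

set_option autoImplicit false

noncomputable section

namespace Fermat.Agent.S37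

open AlgebraicCurve ModularCurve IntermediateField

variable (k : Type*) [Field k] (M : ℕ)

/-- `coeffMap τ` fixes the generators. -/
theorem coeffMap_mem_divisorExpansionsC (τ : k →+* k) {x : LaurentSeries k}
    (hx : x ∈ divisorExpansionsC k M) : coeffMap τ x = x := by
  obtain ⟨d, hd, _, rfl⟩ := hx
  rw [coeffMap_qExpand, coeffMap_jqModC]

/-- The preimage of `modularFunctionFieldFullC k M` under `coeffMap τ`, as an intermediate
field. -/
def coeffComap (τ : k →+* k) : IntermediateField k (LaurentSeries k) where
  carrier := {x | coeffMap τ x ∈ modularFunctionFieldFullC k M}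
  mul_mem' := fun {a b} ha hb => by
    show coeffMap τ (a * b) ∈ modularFunctionFieldFullC k M
    rw [map_mul]; exact mul_mem ha hb
  one_mem' := by
    show coeffMap τ 1 ∈ modularFunctionFieldFullC k M
    rw [map_one]; exact one_mem _
  add_mem' := fun {a b} ha hb => by
    show coeffMap τ (a + b) ∈ modularFunctionFieldFullC k M
    rw [map_add]; exact add_mem ha hb
  zero_mem' := by
    show coeffMap τ 0 ∈ modularFunctionFieldFullC k M
    rw [map_zero]; exact zero_mem _
  algebraMap_mem' := fun a => by
    show coeffMap τ (algebraMap k (LaurentSeries k) a) ∈ modularFunctionFieldFullC k M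
    rw [coeffMap_algebraMap]; exact (modularFunctionFieldFullC k M).algebraMap_mem _
  inv_mem' := fun a ha => by
    show coeffMap τ a⁻¹ ∈ modularFunctionFieldFullC k M
    rw [map_inv₀]; exact inv_mem ha

variable {k M}

/-- `coeffMap τ` preserves `modularFunctionFieldFullC k M`. -/
theorem coeffMap_mem_fullC (τ : k →+* k) {x : LaurentSeries k}
    (hx : x ∈ modularFunctionFieldFullC k M) : coeffMap τ x ∈ modularFunctionFieldFullC k M := by
  have h : modularFunctionFieldFullC k M ≤ coeffComap k M τ := by
    rw [modularFunctionFieldFullC, adjoin_le_iff]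
    intro y hy
    show coeffMap τ y ∈ modularFunctionFieldFullC k M
    rw [coeffMap_mem_divisorExpansionsC k M τ hy]
    exact subset_adjoin k _ hy
  exact h hx

variable (M)

/-- The ring automorphism of `modularFunctionFieldFullC k M` induced by `τ` on coefficients. -/
def coeffRingAut (τ : k ≃+* k) :
    (modularFunctionFieldFullC k M) ≃+* (modularFunctionFieldFullC k M) where
  toFun x := ⟨coeffMap (τ : k →+* k) (x : LaurentSeries k), coeffMap_mem_fullC _ x.2⟩
  invFun x := ⟨coeffMap (τ.symm : k →+* k) (x : LaurentSeries k), coeffMap_mem_fullC _ x.2⟩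
  left_inv x := Subtype.ext <| by
    show coeffMap (τ.symm : k →+* k) (coeffMap (τ : k →+* k) (x : LaurentSeries k))
      = (x : LaurentSeries k)
    rw [coeffMap_coeffMap,
      coeffMap_congr (g := RingHom.id k) (RingHom.ext fun a => τ.symm_apply_apply a)
        (x : LaurentSeries k),
      coeffMap_id]
  right_inv x := Subtype.ext <| by
    show coeffMap (τ : k →+* k) (coeffMap (τ.symm : k →+* k) (x : LaurentSeries k))
      = (x : LaurentSeries k)
    rw [coeffMap_coeffMap,
      coeffMap_congr (g := RingHom.id k) (RingHom.ext fun a => τ.apply_symm_apply a)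
        (x : LaurentSeries k),
      coeffMap_id]
  map_mul' x y :=
    Subtype.ext (map_mul (coeffMap (τ : k →+* k)) (x : LaurentSeries k) (y : LaurentSeries k))
  map_add' x y :=
    Subtype.ext (map_add (coeffMap (τ : k →+* k)) (x : LaurentSeries k) (y : LaurentSeries k))

@[simp]
theorem coe_coeffRingAut_apply (τ : k ≃+* k) (x : modularFunctionFieldFullC k M) :
    (coeffRingAut M τ x : LaurentSeries k) = coeffMap (τ : k →+* k) (x : LaurentSeries k) :=
  rfl

theorem coeffRingAut_algebraMap (τ : k ≃+* k) (a : k) :
    coeffRingAut M τ (algebraMap k (modularFunctionFieldFullC k M) a)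
      = algebraMap k (modularFunctionFieldFullC k M) (τ a) :=
  Subtype.ext (coeffMap_algebraMap (τ : k →+* k) a)

variable (k)

/-- **Coefficientwise automorphisms** of `modularFunctionFieldFullC k M`, as a monoid hom. -/
def coeffAut : RingAut k →* SemilinearAut k (modularFunctionFieldFullC k M) where
  toFun τ := ⟨(coeffRingAut M τ, τ), fun a => coeffRingAut_algebraMap M τ a⟩
  map_one' := by
    refine Subtype.ext (Prod.ext (RingEquiv.ext fun x => Subtype.ext ?_) rfl)
    show coeffMap ((1 : RingAut k) : k →+* k) (x : LaurentSeries k) = (x : LaurentSeries k)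
    rw [show ((1 : RingAut k) : k →+* k) = RingHom.id k from RingHom.ext fun _ => rfl,
      coeffMap_id]
  map_mul' σ τ := by
    refine Subtype.ext (Prod.ext (RingEquiv.ext fun x => Subtype.ext ?_) rfl)
    show coeffMap ((σ * τ : RingAut k) : k →+* k) (x : LaurentSeries k)
      = coeffMap (σ : k →+* k) (coeffMap (τ : k →+* k) (x : LaurentSeries k))
    rw [coeffMap_coeffMap]
    exact coeffMap_congr (RingHom.ext fun _ => rfl) _

variable {k}

@[simp]
theorem toRingAut_coeffAut (τ : RingAut k) :
    SemilinearAut.toRingAut (coeffAut k M τ) = coeffRingAut M τ :=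
  rfl

@[simp]
theorem baseAut_coeffAut (τ : RingAut k) :
    SemilinearAut.baseAut (coeffAut k M τ) = τ :=
  rfl

theorem coe_coeffAut_smul (τ : RingAut k) (x : modularFunctionFieldFullC k M) :
    ((coeffAut k M τ • x : modularFunctionFieldFullC k M) : LaurentSeries k)
      = coeffMap (τ : k →+* k) (x : LaurentSeries k) :=
  rfl

theorem coeff_coeffAut_smul (τ : RingAut k) (x : modularFunctionFieldFullC k M) (n : ℤ) :
    ((coeffAut k M τ • x : modularFunctionFieldFullC k M) : LaurentSeries k).coeff n
      = τ ((x : LaurentSeries k).coeff n) := by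
  rw [coe_coeffAut_smul, coeffMap_coeff]
  rfl

end Fermat.Agent.S37

end
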