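import Fermat.Agent.GAL.Igusa.Level
import Fermat.Agent.S37.CoeffAut
import Fermat.Prelude.Def_AlgebraicCurve_BaseChangeGalois

/-!
# S37, leaf B: coefficientwise automorphisms of `E k M = k(j(q^d) : d ∣ M) ⊂ k((q))`.

Thin wrapper around `S37/CoeffAut.lean` (`coeffAut`).
-/

set_option autoImplicit false

namespace Fermat.Agent.S37

open AlgebraicCurve ModularCurve Fermat.Agent.GAL.Igusa

variable (k : Type) [Field k] (M : ℕ)

/-- The semilinear automorphism of `E k M` induced by `τ`. -/
noncomputable def barAut (τ : k ≃+* k) : SemilinearAut k (E k M) :=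
  coeffAut k M τ

theorem barAut_eq_coeffAut (τ : k ≃+* k) : barAut k M τ = coeffAut k M τ := rfl

theorem coe_barAut_smul (τ : k ≃+* k) (x : E k M) :
    ((barAut k M τ • x : E k M) : LaurentSeries k) = coeffMap (τ : k →+* k) (x : LaurentSeries k) :=
  rfl

theorem barAut_symm (τ : k ≃+* k) : barAut k M τ.symm = (barAut k M τ)⁻¹ :=
  map_inv (coeffAut k M) τ

theorem barAut_one : barAut k M (RingEquiv.refl k) = 1 :=
  map_one (coeffAut k M)

end Fermat.Agent.S37
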