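import Fermat.Agent.GAL.RED.Modular
import Fermat.Agent.GAL.Hecke.GalA
import Fermat.Agent.GAL.Hecke.Normalise
import Fermat.Agent.S37.Bar

/-!
# S37, leaf R1: the Gauss reduction datum on `FN M`.
-/

set_option autoImplicit false

namespace Fermat.Agent.S37

open AlgebraicCurve ModularCurve Fermat.Agent.Lib.RR Fermat.Agent.GAL Fermat.Agent.GAL.RED
  Fermat.Agent.GAL.Hecke Fermat.Agent.GAL.Igusa Fermat.Agent.S24

/-- transport of a reduction datum along an equality of intermediate fields. -/
def congrRedData {K Ω k Fb : Type*} [Field K] [Field Ω] [Algebra K Ω] [Field k] [Field Fb]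
    [Algebra k Fb] {E₁ E₂ : IntermediateField K Ω} (h : E₁ = E₂) (R : RedData K ↥E₂ k Fb) :
    RedData K ↥E₁ k Fb := h ▸ R

section congr

variable {K Ω k Fb : Type*} [Field K] [Field Ω] [Algebra K Ω] [Field k] [Field Fb]
    [Algebra k Fb] {E₁ E₂ : IntermediateField K Ω} (h : E₁ = E₂) (R : RedData K ↥E₂ k Fb)

theorem congrRedData_A : (congrRedData h R).A = R.A := by
  subst h; rfl

theorem congrRedData_redA (a : K) : (congrRedData h R).redA a = R.redA a := by
  subst h; rfl

theorem mem_congrRedData_O (x : ↥E₁) :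
    x ∈ (congrRedData h R).O ↔ (⟨(x : Ω), h ▸ x.2⟩ : ↥E₂) ∈ R.O := by
  subst h; rfl

theorem congrRedData_red (x : ↥E₁) :
    (congrRedData h R).red x = R.red ⟨(x : Ω), h ▸ x.2⟩ := by
  subst h; rfl

theorem congrRedData_isCartesian (hC : R.IsCartesian) : (congrRedData h R).IsCartesian := by
  subst h; exact hC

end congr

variable (A : ValuationSubring Kbar) (M : ℕ) [NeZero M]

/-- The Gauss reduction datum on `FN M`. -/
noncomputable def redFN (hM : ((M : ℕ) : IsLocalRing.ResidueField ↥A) ≠ 0) :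
    RedData Kbar (FN M) (IsLocalRing.ResidueField ↥A) (E (IsLocalRing.ResidueField ↥A) M) :=
  congrRedData (modularFunctionFieldBar_eq_fullC M) (gaussRedData A M hM)

variable {A M}

theorem redFN_isCartesian (hM : ((M : ℕ) : IsLocalRing.ResidueField ↥A) ≠ 0) :
    (redFN A M hM).IsCartesian :=
  congrRedData_isCartesian _ _ (gaussRedData_isCartesian hM)

theorem redFN_A (hM : ((M : ℕ) : IsLocalRing.ResidueField ↥A) ≠ 0) : (redFN A M hM).A = A :=
  congrRedData_A _ _

/-! ### leaf R1: description by `q`-expansions -/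

/-- integral `q`-expansion ⟹ integral, reduction = coefficientwise reduction. -/
theorem redFN_incl (hM : ((M : ℕ) : IsLocalRing.ResidueField ↥A) ≠ 0) (x : FN M)
    (z : LaurentSeries ↥A) (hz : (x : LaurentSeries Kbar) = incl A z) :
    x ∈ (redFN A M hM).O ∧
      (((redFN A M hM).red x : E (IsLocalRing.ResidueField ↥A) M) :
        LaurentSeries (IsLocalRing.ResidueField ↥A)) = red A z := by
  have hz' : ((⟨(x : LaurentSeries Kbar), modularFunctionFieldBar_eq_fullC M ▸ x.2⟩ :
      ↥(modularFunctionFieldFullC Kbar M)) : LaurentSeries Kbar) = Gauss.iA A z := hz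
  constructor
  · unfold redFN
    rw [mem_congrRedData_O]
    exact mem_gaussRedData_O hM _ z hz'
  · unfold redFN
    rw [congrRedData_red]
    exact coe_gaussRedData_red hM _ z hz'

/-- every unit of `O` is a quotient `P / Q` of elements with integral `q`-expansions and non zero
reductions (`Gauss.normalise_frac`). -/
theorem exists_frac_of_red_ne_zero (hM : ((M : ℕ) : IsLocalRing.ResidueField ↥A) ≠ 0) (u : FN M)
    (hu : (redFN A M hM).red u ≠ 0) :
    ∃ (P Q : FN M) (p q : LaurentSeries ↥A), (P : LaurentSeries Kbar) = incl A p ∧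
      (Q : LaurentSeries Kbar) = incl A q ∧ red A p ≠ 0 ∧ red A q ≠ 0 ∧ u * Q = P := by
  set R := redFN A M hM with hR
  have hu0 : u ≠ 0 := R.ne_zero_of_red_ne_zero hu
  have hu0' : (u : LaurentSeries Kbar) ≠ 0 := fun h => hu0 (Subtype.ext h)
  have humem : (u : LaurentSeries Kbar) ∈ modularFunctionFieldFullC Kbar M :=
    modularFunctionFieldBar_eq_fullC M ▸ u.2
  obtain ⟨c, P, Q, hc0, hP, hQ, hPr, hQr, -, -, e⟩ :=
    Gauss.normalise_frac A M hM (u : LaurentSeries Kbar) humem hu0'
  let P' : FN M := ⟨Gauss.iA A P, by rw [modularFunctionFieldBar_eq_fullC]; exact hP⟩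
  let Q' : FN M := ⟨Gauss.iA A Q, by rw [modularFunctionFieldBar_eq_fullC]; exact hQ⟩
  have hP' := redFN_incl hM P' P rfl
  have hQ' := redFN_incl hM Q' Q rfl
  have hP'r : R.red P' ≠ 0 := by
    intro h
    apply hPr
    have h1 := hP'.2
    rw [← hR, h] at h1
    exact h1.symm
  have hQ'r : R.red Q' ≠ 0 := by
    intro h
    apply hQr
    have h1 := hQ'.2
    rw [← hR, h] at h1
    exact h1.symm
  have e' : Q' * u = algebraMap Kbar (FN M) c * P' := by
    apply Subtype.ext
    change Gauss.iA A Q * (u : LaurentSeries Kbar) =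
      ((algebraMap Kbar (FN M) c : FN M) : LaurentSeries Kbar) * Gauss.iA A P
    rw [e, IntermediateField.coe_algebraMap_apply, Gauss.algebraMap_eq_C]
  -- `c` is a unit of `A`
  have hcv : R.O.valuation (algebraMap Kbar (FN M) c) = 1 := by
    have h1 := congrArg R.O.valuation e'
    rw [map_mul, map_mul, R.red_ne_zero_iff_valuation.1 hu, R.red_ne_zero_iff_valuation.1 hP'r,
      R.red_ne_zero_iff_valuation.1 hQ'r, mul_one, mul_one] at h1
    exact h1.symm
  have hcred : R.redA c ≠ 0 := by
    have h1 := R.red_ne_zero_iff_valuation.2 hcv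
    rw [R.red_algebraMap'] at h1
    intro h
    rw [h, map_zero] at h1
    exact h1 rfl
  have hcA : c ∈ A := by
    have := R.mem_of_redA_ne_zero hcred
    rwa [hR, redFN_A] at this
  have hcres : IsLocalRing.residue ↥A ⟨c, hcA⟩ ≠ 0 := by
    intro h
    apply hcred
    rw [hR]
    unfold redFN
    rw [congrRedData_redA]
    have h2 : (gaussRedData A M hM).redA c = IsLocalRing.residue ↥A ⟨c, hcA⟩ :=
      GRed.of_mem _ _ hcA
    rw [h2, h]
  have hinclC : incl A (HahnSeries.C (⟨c, hcA⟩ : ↥A)) = HahnSeries.C c := by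
    rw [Hecke.incl, HahnSeries.C_apply, HahnSeries.C_apply, coeffMap_single]
    rfl
  have hredC : red A (HahnSeries.C (⟨c, hcA⟩ : ↥A)) =
      HahnSeries.C (IsLocalRing.residue ↥A ⟨c, hcA⟩) := by
    rw [Hecke.red, HahnSeries.C_apply, HahnSeries.C_apply, coeffMap_single]
  refine ⟨u * Q', Q', HahnSeries.C (⟨c, hcA⟩ : ↥A) * P, Q, ?_, rfl, ?_, hQr, rfl⟩
  · rw [map_mul, hinclC]
    change (u : LaurentSeries Kbar) * Gauss.iA A Q = HahnSeries.C c * Gauss.iA A P
    rw [← e, mul_comm]
  · rw [map_mul, hredC]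
    refine mul_ne_zero ?_ hPr
    intro h
    apply hcres
    have := congrArg (fun s => HahnSeries.coeff s 0) h
    simpa [HahnSeries.C_apply] using this

end Fermat.Agent.S37
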