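import Fermat.Agent.GAL.RED.Disc
import Fermat.Prelude.Def_AlgebraicCurve_BaseChangeGalois

/-!
# S37, leaf G0: semilinear automorphisms, divisors and `L(D)`.
-/

set_option autoImplicit false

namespace Fermat.Agent.S37

open AlgebraicCurve Fermat.Agent.Lib.RR Fermat.Agent.GAL.RED

variable {K F k Fb : Type*} [Field K] [Field F] [Algebra K F] [Field k] [Field Fb] [Algebra k Fb]

/-! ### semilinear automorphisms, divisors and `L(D)` -/

theorem divOf_smul [HasPrincipalDivisors K F] (g : SemilinearAut K F) (y : F) :
    divOf (K := K) (g • y) = g • divOf (K := K) y := by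
  ext w
  rw [divOf_apply, SemilinearAut.divisor_smul_apply, divOf_apply]
  have h := SemilinearAut.ord_smul g (g⁻¹ • w) y
  rwa [smul_inv_smul] at h

theorem smul_mem_L_iff (g : SemilinearAut K F) (D : Divisor K F) (f : F) :
    g • f ∈ riemannRochSpace (g • D) ↔ f ∈ riemannRochSpace D := by
  rw [mem_riemannRochSpace_iff, mem_riemannRochSpace_iff]
  constructor
  · intro h v
    have h1 := h (g • v)
    rw [SemilinearAut.divisor_smul_apply_smul, SemilinearAut.ord_smul, smul_eq_zero_iff_eq] at h1
    exact h1
  · intro h w
    have h1 := h (g⁻¹ • w)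
    have h2 := SemilinearAut.ord_smul g (g⁻¹ • w) f
    rw [smul_inv_smul] at h2
    rw [SemilinearAut.divisor_smul_apply, h2, smul_eq_zero_iff_eq]
    exact h1

theorem mapDomain_smul_eq (g : SemilinearAut K F) (D : Divisor K F) :
    g • D = Finsupp.mapDomain (fun P : Place K F => g • P) D := by
  exact SemilinearAut.divisor_smul_def g D

end Fermat.Agent.S37
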