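import Fermat.Agent.S37.Unique
import Fermat.Agent.S37.Semilin

/-!
# S37, leaf G2: equivariance of the reduction map on points.
-/

set_option autoImplicit false

namespace Fermat.Agent.S37

open AlgebraicCurve Fermat.Agent.Lib.RR Fermat.Agent.GAL.RED

variable {K F k Fb : Type*} [Field K] [Field F] [Algebra K F] [Field k] [Field Fb] [Algebra k Fb]

variable [IsFF K F] [IsAlgClosed K] [IsFF k Fb] [IsAlgClosed k]

omit [IsFF K F] [IsAlgClosed K] [IsFF k Fb] [IsAlgClosed k] in
/-- `f ∈ O` iff `red f ≠ 0` or `red (1 + f) ≠ 0`. -/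
theorem equivariant_mem_O_iff (R : RedData K F k Fb) (f : F) :
    f ∈ R.O ↔ R.red f ≠ 0 ∨ R.red (1 + f) ≠ 0 := by
  constructor
  · intro hf
    by_cases h0 : R.red f = 0
    · right
      rw [R.red_add R.O.one_mem hf, h0, add_zero, R.red_of_mem R.O.one_mem]
      have : (⟨1, R.O.one_mem⟩ : R.O) = 1 := rfl
      rw [this, map_one]
      exact one_ne_zero
    · exact Or.inl h0
  · rintro (h | h)
    · exact R.mem_of_red_ne_zero h
    · have h1 := R.mem_of_red_ne_zero h
      have h2 := R.O.sub_mem h1 R.O.one_mem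
      rwa [add_sub_cancel_left] at h2

omit [IsFF K F] [IsAlgClosed K] [IsFF k Fb] [IsAlgClosed k] in
theorem equivariant_smul_mem_O_iff {R : RedData K F k Fb}
    (g : SemilinearAut K F) (gb : SemilinearAut k Fb)
    (hred : ∀ f : F, R.red (g • f) = gb • R.red f) (f : F) : g • f ∈ R.O ↔ f ∈ R.O := by
  rw [equivariant_mem_O_iff, equivariant_mem_O_iff R f]
  have h1 : (1 : F) + g • f = g • (1 + f) := by rw [smul_add, smul_one]
  rw [h1, hred, hred, Ne, Ne, smul_eq_zero_iff_eq, smul_eq_zero_iff_eq]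

omit [IsFF K F] [IsAlgClosed K] [IsFF k Fb] [IsAlgClosed k] in
theorem equivariant_mapDomain (r : Place K F → Place k Fb)
    (g : SemilinearAut K F) (gb : SemilinearAut k Fb) (D : Divisor K F) :
    Finsupp.mapDomain (fun P => gb⁻¹ • r (g • P)) D = gb⁻¹ • Finsupp.mapDomain r (g • D) := by
  rw [SemilinearAut.divisor_smul_def, SemilinearAut.divisor_smul_def, ← Finsupp.mapDomain_comp,
    ← Finsupp.mapDomain_comp]
  rfl

/-- (G2) Equivariance: if `g`, `gb` are semilinear automorphisms of `F`, `Fb` compatible with the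
reduction then `r (g • P) = gb • r P`.

Proof. `r' P := gb⁻¹ • r (g • P)` is again a reduction map:
* surjective: clear;
* `map_divOf`: `r'_* div y = gb⁻¹ • r_* (g • div y) = gb⁻¹ • r_* div (g • y)
    = gb⁻¹ • div (red (g • y)) = gb⁻¹ • div (gb • red y) = div (red y)`;
* `redSub_L`: `h ∈ red L(D) ↔ gb • h ∈ red L(g • D) = L̄(r_* (g • D)) ↔ h ∈ L̄(gb⁻¹ • r_* (g • D))`
  (`smul_mem_L_iff`; note `f ∈ O ↔ g • f ∈ O` follows from `hred`: `f ∈ O` iff `red f ≠ 0` or
  `red (1 + f) ≠ 0`).
Then `IsRedMap.unique`. -/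
theorem IsRedMap.smul_comm {R : RedData K F k Fb} {r : Place K F → Place k Fb}
    (hg : genusFF K F = genusFF k Fb) (hr : IsRedMap R r)
    (g : SemilinearAut K F) (gb : SemilinearAut k Fb)
    (hred : ∀ f : F, R.red (g • f) = gb • R.red f) (P : Place K F) :
    r (g • P) = gb • r P := by
  have hr' : IsRedMap R (fun P => gb⁻¹ • r (g • P)) := by
    refine ⟨fun Q => ?_, fun y hy => ?_, fun D hD => ?_⟩
    · obtain ⟨P, hP⟩ := hr.surjective (gb • Q)
      refine ⟨g⁻¹ • P, ?_⟩
      show gb⁻¹ • r (g • g⁻¹ • P) = Q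
      rw [smul_inv_smul, hP, inv_smul_smul]
    · have hy' : R.red (g • y) ≠ 0 := by
        rw [hred, Ne, smul_eq_zero_iff_eq]
        exact hy
      rw [equivariant_mapDomain, ← divOf_smul, hr.map_divOf _ hy', hred, divOf_smul,
        inv_smul_smul]
    · rw [equivariant_mapDomain]
      have hD' : 3 * (genusFF K F : ℤ) ≤ Divisor.degree (g • D) := by
        rw [SemilinearAut.degree_smul]
        exact hD
      have hL := hr.redSub_L (g • D) hD'
      ext h
      have h1 := smul_mem_L_iff gb (gb⁻¹ • Finsupp.mapDomain r (g • D)) h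
      rw [smul_inv_smul] at h1
      rw [← h1, ← hL, R.mem_redSub, R.mem_redSub]
      constructor
      · rintro ⟨f, hfL, hfO, rfl⟩
        exact ⟨g • f, (smul_mem_L_iff g D f).mpr hfL,
          (equivariant_smul_mem_O_iff g gb hred f).mpr hfO, hred f⟩
      · rintro ⟨f', hfL, hfO, hf'⟩
        have e : g • g⁻¹ • f' = f' := smul_inv_smul g f'
        refine ⟨g⁻¹ • f', (smul_mem_L_iff g D _).mp (by rwa [e]),
          (equivariant_smul_mem_O_iff g gb hred _).mp (by rwa [e]), ?_⟩
        apply MulAction.injective gb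
        show gb • R.red (g⁻¹ • f') = gb • h
        rw [← hred, e, hf']
  have h := congrFun (IsRedMap.unique hg hr' hr) P
  exact inv_smul_eq_iff.mp h

theorem IsRedMap.mapDomain_smul {R : RedData K F k Fb} {r : Place K F → Place k Fb}
    (hg : genusFF K F = genusFF k Fb) (hr : IsRedMap R r)
    (g : SemilinearAut K F) (gb : SemilinearAut k Fb)
    (hred : ∀ f : F, R.red (g • f) = gb • R.red f) (D : Divisor K F) :
    Finsupp.mapDomain r (g • D) = gb • Finsupp.mapDomain r D := by
  rw [SemilinearAut.divisor_smul_def, SemilinearAut.divisor_smul_def, ← Finsupp.mapDomain_comp,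
    ← Finsupp.mapDomain_comp]
  congr 1
  funext P
  exact IsRedMap.smul_comm hg hr g gb hred P

end Fermat.Agent.S37
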