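import Fermat.Agent.S37.Positivity
import Fermat.Agent.GAL.RED.Disc

/-!
# S37, leaf E: from an identity on functions to an identity on divisors (abstract Eichler-Shimura).
-/

set_option autoImplicit false

namespace Fermat.Agent.S37

open AlgebraicCurve Fermat.Agent.Lib.RR Fermat.Agent.GAL.RED

variable {K F k Fb : Type*} [Field K] [Field F] [Algebra K F] [Field k] [Field Fb] [Algebra k Fb]
variable [IsFF K F] [IsAlgClosed K] [IsFF k Fb] [IsAlgClosed k]

theorem ESDiv_apply_eq_zero (Θ : Divisor k Fb →+ Divisor k Fb) (y : Place k Fb)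
    (E : Divisor k Fb) (h : ∀ Q : Place k Fb, Θ (pt Q) y ≠ 0 → E Q = 0) : Θ E y = 0 := by
  classical
  have hE : E = E.sum fun Q n => n • pt Q := by
    conv_lhs => rw [← Finsupp.sum_single E]
    refine Finsupp.sum_congr fun Q _ => ?_
    rw [pt, Finsupp.smul_single, smul_eq_mul, mul_one]
  rw [hE, Finsupp.sum, map_sum, Finsupp.finsetSum_apply]
  refine Finset.sum_eq_zero fun Q _ => ?_
  rw [map_zsmul, Finsupp.smul_apply, smul_eq_mul]
  by_cases hQ : Θ (pt Q) y = 0
  · rw [hQ, mul_zero]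
  · rw [h Q hQ, zero_mul]

/-- `T` a positive correspondence on `F` with "norm" `Nm` on functions, `Θ` an additive map on the
divisors of `Fb`, of the same degree, locally finite, such that
`div (red (Nm u)) = Θ (div (red u))` for all units `u` of `O`.  Then `r_* ∘ T = Θ ∘ r_*`.

Proof. `eq_of_positive` with `S := r_* ∘ T`, `T' := Θ ∘ r_*`, `d₀ := 3 g`.
* `hS`: `hTpos`, `mapDomain_nonneg`.  * `hdeg`: `degree_eq_sum`, `degree_mapDomain`.
* `hprin`: scale `u` to a unit `u' = c u` of `O` (`hC.exists_scale`), `div u' = div u`;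
  `r_* T div u' = r_* div (Nm u') = div (red (Nm u')) = Θ div (red u') = Θ r_* div u'`.
* `hav`: given `y`, `Z := {Q | Θ (pt Q) y ≠ 0}` (finite). For `deg D ≥ 3 g`: `exists_avoid` on `Fb`
  for `r_* D` and `Z` gives `hb ∈ L̄(r_* D)`; lift it to `f ∈ L(D)` (`hr.exists_lift_L`);
  `r_* (D + div f) = r_* D + div hb` vanishes on `Z`, and `D + div f ≥ 0`. Finally
  `Θ E y = ∑_Q E Q * Θ (pt Q) y = 0` for `E := r_* (D + div f)` (write `E` as a sum of singles). -/
theorem mapDomain_comm_of_norm {R : RedData K F k Fb} {r : Place K F → Place k Fb}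
    (hC : R.IsCartesian) (hg : genusFF K F = genusFF k Fb) (hr : IsRedMap R r)
    (T : Divisor K F →+ Divisor K F) (Θ : Divisor k Fb →+ Divisor k Fb) (Nm : F → F)
    (hTpos : ∀ D : Divisor K F, 0 ≤ D → 0 ≤ T D) (n : ℤ)
    (hTdeg : ∀ D : Divisor K F, Divisor.degree (T D) = n * Divisor.degree D)
    (hΘdeg : ∀ E : Divisor k Fb, Divisor.degree (Θ E) = n * Divisor.degree E)
    (hΘfin : ∀ y : Place k Fb, {Q : Place k Fb | Θ (pt Q) y ≠ 0}.Finite)
    (hNm : ∀ u : F, u ≠ 0 → Nm u ≠ 0 ∧ divOf (K := K) (Nm u) = T (divOf u))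
    (hred : ∀ u : F, R.red u ≠ 0 →
      R.red (Nm u) ≠ 0 ∧ divOf (K := k) (R.red (Nm u)) = Θ (divOf (R.red u)))
    (D : Divisor K F) :
    Finsupp.mapDomain r (T D) = Θ (Finsupp.mapDomain r D) := by
  classical
  set S1 : Divisor K F →+ (Place k Fb →₀ ℤ) :=
    (Finsupp.mapDomain.addMonoidHom r).comp T with hS1
  set T1 : Divisor K F →+ (Place k Fb →₀ ℤ) :=
    Θ.comp (Finsupp.mapDomain.addMonoidHom r) with hT1
  have key : S1 = T1 := by
    refine eq_of_positive S1 T1 ?_ ?_ ?_ (3 * (genusFF K F : ℤ)) ?_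
    · intro D hD
      exact mapDomain_nonneg r (hTpos D hD)
    · intro D
      have h1 : ((S1 D).sum fun _ n => n) = Divisor.degree (Finsupp.mapDomain r (T D)) :=
        (degree_eq_sum (K := k) (F := Fb) _).symm
      have h2 : ((T1 D).sum fun _ n => n) = Divisor.degree (Θ (Finsupp.mapDomain r D)) :=
        (degree_eq_sum (K := k) (F := Fb) _).symm
      rw [h1, h2, degree_mapDomain, hTdeg, hΘdeg, degree_mapDomain]
    · intro u hu
      obtain ⟨c, hc0, hcu⟩ := hC.exists_scale hu
      have hcF0 : algebraMap K F c ≠ 0 := by simpa using hc0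
      set u1 : F := algebraMap K F c * u with hu1
      have hdivu1 : divOf (K := K) u1 = divOf (K := K) u := by
        rw [hu1, divOf_mul hcF0 hu, divOf_algebraMap, zero_add]
      have hu10 : u1 ≠ 0 := mul_ne_zero hcF0 hu
      obtain ⟨hN0, hNdiv⟩ := hNm u1 hu10
      obtain ⟨hR0, hRdiv⟩ := hred u1 hcu
      show Finsupp.mapDomain r (T (divOf u)) = Θ (Finsupp.mapDomain r (divOf u))
      rw [← hdivu1, ← hNdiv, hr.map_divOf _ hR0, hRdiv, hr.map_divOf _ hcu]
    · intro y D hD
      set Z : Finset (Place k Fb) := (hΘfin y).toFinset with hZ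
      have hD' : 2 * (genusFF k Fb : ℤ) ≤ Divisor.degree (Finsupp.mapDomain r D) := by
        rw [degree_mapDomain, ← hg]
        have : (0 : ℤ) ≤ genusFF K F := Int.natCast_nonneg _
        linarith
      obtain ⟨hb, hb0, hbnn, hbZ⟩ := exists_avoid (Finsupp.mapDomain r D) hD' Z
      have hbL : hb ∈ riemannRochSpace (Finsupp.mapDomain r D) := by
        rw [mem_L_iff]
        right
        rwa [add_comm]
      obtain ⟨f, hfL, hfO, hfred⟩ := hr.exists_lift_L hD hbL
      have hredf : R.red f ≠ 0 := by rw [hfred]; exact hb0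
      have hf0 : f ≠ 0 := R.ne_zero_of_red_ne_zero hredf
      refine ⟨f, hf0, ?_, ?_⟩
      · have := (mem_L_iff.mp hfL).resolve_left hf0
        rwa [add_comm]
      · show Θ (Finsupp.mapDomain r (D + divOf f)) y = 0
        apply ESDiv_apply_eq_zero
        intro Q hQ
        rw [Finsupp.mapDomain_add, hr.map_divOf f hredf, hfred]
        apply hbZ Q
        rw [hZ, Set.Finite.mem_toFinset]
        exact hQ
  exact DFunLike.congr_fun key D

end Fermat.Agent.S37
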