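import Fermat.Agent.S37.CoeffAut
import Fermat.Agent.GAL.RED.Concrete
import Fermat.Prelude.Def_EllipticCurve_FrobeniusTrace
import Fermat.Prelude.Def_FLTPrelim_Ramification

/-!
# S37: the Gauss reduction of `F_K(M)` is equivariant for coefficientwise automorphisms.

* `red_coeffAut_smul` : general form (`σ` an automorphism of `K` preserving `A`, inducing `σb` on
  the residue field).
* `decompAut`, `decompResAut` : the automorphisms of `Qbar` / of the residue field attached to an
  element of the decomposition group; `red_decompAut_smul`.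
* `red_smul_of_mem_inertia`, `decompResAut_apply_of_isFrobeniusAt`.
-/

set_option autoImplicit false

noncomputable section

namespace Fermat.Agent.S37

open AlgebraicCurve ModularCurve Fermat.Agent.GAL.RED Fermat.Agent.GAL.Gauss

section Aux

variable {k : Type*} [Field k] (M : ℕ)

theorem coeffAut_smul_zero (τ : RingAut k) :
    coeffAut k M τ • (0 : ↥(modularFunctionFieldFullC k M)) = 0 :=
  map_zero (coeffRingAut M τ)

theorem coeffAut_one_smul (x : ↥(modularFunctionFieldFullC k M)) :
    coeffAut k M 1 • x = x := by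
  rw [map_one, one_smul]

end Aux

section General

variable {K : Type} [Field K] (A : ValuationSubring K)

theorem coeffMap_iA (σ : K →+* K) (σA : ↥A →+* ↥A) (h1 : ∀ a : ↥A, ((σA a : ↥A) : K) = σ a)
    (z : LaurentSeries ↥A) : coeffMap σ (iA A z) = iA A (coeffMap σA z) := by
  ext n
  rw [coeffMap_coeff, iA_coeff, iA_coeff, coeffMap_coeff, h1]

theorem coeffMap_pA (σA : ↥A →+* ↥A)
    (σb : IsLocalRing.ResidueField ↥A →+* IsLocalRing.ResidueField ↥A)
    (h2 : ∀ a : ↥A, IsLocalRing.residue ↥A (σA a) = σb (IsLocalRing.residue ↥A a))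
    (z : LaurentSeries ↥A) : pA A (coeffMap σA z) = coeffMap σb (pA A z) := by
  ext n
  rw [coeffMap_coeff, pA_coeff, pA_coeff, coeffMap_coeff, h2]

theorem coeffMap_mem_gRing (σ : K →+* K) (σA : ↥A →+* ↥A)
    (σb : IsLocalRing.ResidueField ↥A →+* IsLocalRing.ResidueField ↥A)
    (h1 : ∀ a : ↥A, ((σA a : ↥A) : K) = σ a)
    (h2 : ∀ a : ↥A, IsLocalRing.residue ↥A (σA a) = σb (IsLocalRing.residue ↥A a))
    {x : LaurentSeries K} (hx : x ∈ gRing A) : coeffMap σ x ∈ gRing A := by
  obtain ⟨z, g, hg, h⟩ := hx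
  refine ⟨coeffMap σA z, coeffMap σA g, ?_, ?_⟩
  · rw [coeffMap_pA A σA σb h2]
    exact (map_ne_zero _).2 hg
  · rw [← coeffMap_iA A σ σA h1, ← coeffMap_iA A σ σA h1, ← h, map_mul]

theorem gRes_coeffMap (σ : K →+* K) (σA : ↥A →+* ↥A)
    (σb : IsLocalRing.ResidueField ↥A →+* IsLocalRing.ResidueField ↥A)
    (h1 : ∀ a : ↥A, ((σA a : ↥A) : K) = σ a)
    (h2 : ∀ a : ↥A, IsLocalRing.residue ↥A (σA a) = σb (IsLocalRing.residue ↥A a))
    (x : ↥(gRing A)) :
    gRes A ⟨coeffMap σ (x : LaurentSeries K), coeffMap_mem_gRing A σ σA σb h1 h2 x.2⟩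
      = coeffMap σb (gRes A x) := by
  obtain ⟨z, g, hg, h⟩ := (mem_gRing_iff A).mp x.2
  rw [gRes_eq A x hg h,
    gRes_eq A _ (z := coeffMap σA z) (g := coeffMap σA g)
      (by rw [coeffMap_pA A σA σb h2]; exact (map_ne_zero _).2 hg)
      (by
        show iA A (coeffMap σA g) * coeffMap σ (x : LaurentSeries K) = _
        rw [← coeffMap_iA A σ σA h1, ← coeffMap_iA A σ σA h1, ← h, map_mul]),
    coeffMap_pA A σA σb h2, coeffMap_pA A σA σb h2, map_div₀]

variable (M : ℕ) [NeZero M]

/-- **Equivariance of the Gauss reduction**, general form. -/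
theorem red_coeffAut_smul (hM : ((M : ℕ) : IsLocalRing.ResidueField ↥A) ≠ 0)
    (σ : RingAut K) (σA : ↥A ≃+* ↥A) (σb : RingAut (IsLocalRing.ResidueField ↥A))
    (h1 : ∀ a : ↥A, ((σA a : ↥A) : K) = σ a)
    (h2 : ∀ a : ↥A, IsLocalRing.residue ↥A (σA a) = σb (IsLocalRing.residue ↥A a))
    (f : ↥(modularFunctionFieldFullC K M)) :
    (gaussRedData A M hM).red (coeffAut K M σ • f)
      = coeffAut (IsLocalRing.ResidueField ↥A) M σb • (gaussRedData A M hM).red f := by
  have h1' : ∀ a : ↥A, ((σA.symm a : ↥A) : K) = σ.symm a := by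
    intro a
    apply σ.injective
    rw [RingEquiv.apply_symm_apply, ← h1, RingEquiv.apply_symm_apply]
  have h2' : ∀ a : ↥A, IsLocalRing.residue ↥A (σA.symm a)
      = σb.symm (IsLocalRing.residue ↥A a) := by
    intro a
    apply σb.injective
    rw [RingEquiv.apply_symm_apply, ← h2, RingEquiv.apply_symm_apply]
  by_cases hf : f ∈ (gaussRedData A M hM).O
  · have hf' : (f : LaurentSeries K) ∈ gRing A := hf
    have hσf : coeffAut K M σ • f ∈ (gaussRedData A M hM).O := by
      show ((coeffAut K M σ • f : ↥(modularFunctionFieldFullC K M)) : LaurentSeries K) ∈ gRing A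
      rw [coe_coeffAut_smul]
      exact coeffMap_mem_gRing A (σ : K →+* K) (σA : ↥A →+* ↥A) (σb : IsLocalRing.ResidueField ↥A →+* IsLocalRing.ResidueField ↥A) h1 h2 hf'
    rw [(gaussRedData A M hM).red_of_mem hf, (gaussRedData A M hM).red_of_mem hσf]
    apply Subtype.ext
    rw [coe_coeffAut_smul]
    show ((resOFK A M hM ⟨_, hσf⟩ : ↥(modularFunctionFieldFullC (IsLocalRing.ResidueField ↥A) M)) :
      LaurentSeries (IsLocalRing.ResidueField ↥A)) = coeffMap _
        ((resOFK A M hM ⟨f, hf⟩ : ↥(modularFunctionFieldFullC (IsLocalRing.ResidueField ↥A) M)) :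
          LaurentSeries (IsLocalRing.ResidueField ↥A))
    rw [coe_resOFK, coe_resOFK]
    exact gRes_coeffMap A (σ : K →+* K) (σA : ↥A →+* ↥A) (σb : IsLocalRing.ResidueField ↥A →+* IsLocalRing.ResidueField ↥A) h1 h2 ⟨f, hf'⟩
  · have hσf : coeffAut K M σ • f ∉ (gaussRedData A M hM).O := by
      intro h
      apply hf
      have h' : ((coeffAut K M σ • f : ↥(modularFunctionFieldFullC K M)) : LaurentSeries K)
          ∈ gRing A := h
      rw [coe_coeffAut_smul] at h'
      have h3 := coeffMap_mem_gRing A (σ.symm : K →+* K) (σA.symm : ↥A →+* ↥A)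
        (σb.symm : IsLocalRing.ResidueField ↥A →+* IsLocalRing.ResidueField ↥A) h1' h2' h'
      rw [coeffMap_coeffMap,
        coeffMap_congr (g := RingHom.id K) (RingHom.ext fun a => σ.symm_apply_apply a),
        coeffMap_id] at h3
      show (f : LaurentSeries K) ∈ gRing A
      exact h3
    exact (((gaussRedData A M hM).red_of_not_mem hσf).trans (coeffAut_smul_zero M σb).symm).trans
      (congrArg (fun y => coeffAut (IsLocalRing.ResidueField ↥A) M σb • y)
        ((gaussRedData A M hM).red_of_not_mem hf).symm)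

end General

section Qbar

local notation "Kbar" => AlgebraicClosure ℚ

variable (A : ValuationSubring Kbar)

/-- the automorphism of the residue field induced by an element of the decomposition group. -/
def decompResAut (σ : A.decompositionSubgroup ℚ) : RingAut (IsLocalRing.ResidueField ↥A) :=
  MulSemiringAction.toRingAut (A.decompositionSubgroup ℚ) (IsLocalRing.ResidueField ↥A) σ

theorem decompResAut_apply (σ : A.decompositionSubgroup ℚ) (x : IsLocalRing.ResidueField ↥A) :
    decompResAut A σ x = σ • x := rfl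

theorem decompResAut_eq_one_of_mem_inertia (σ : A.decompositionSubgroup ℚ)
    (hσ : σ ∈ A.inertiaSubgroup ℚ) : decompResAut A σ = 1 := hσ

theorem decompResAut_apply_of_isFrobeniusAt {ℓ : ℕ} (σ : Kbar ≃ₐ[ℚ] Kbar)
    (hσ : A.IsFrobeniusAt σ ℓ) (x : IsLocalRing.ResidueField ↥A) :
    decompResAut A ⟨σ, hσ.mem_decompositionSubgroup⟩ x = x ^ ℓ :=
  hσ.smul_residue_eq x

variable (M : ℕ) [NeZero M]

/-- Equivariance of the Gauss reduction under the decomposition group. -/
theorem red_decomp_smul (hM : ((M : ℕ) : IsLocalRing.ResidueField ↥A) ≠ 0)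
    (σ : A.decompositionSubgroup ℚ) (f : ↥(modularFunctionFieldFullC Kbar M)) :
    (gaussRedData A M hM).red (coeffAut Kbar M ((σ : Kbar ≃ₐ[ℚ] Kbar).toRingEquiv) • f)
      = coeffAut (IsLocalRing.ResidueField ↥A) M (decompResAut A σ) •
          (gaussRedData A M hM).red f :=
  red_coeffAut_smul A M hM _
    (MulSemiringAction.toRingEquiv (A.decompositionSubgroup ℚ) ↥A σ) (decompResAut A σ)
    (fun _ => rfl) (fun a => IsLocalRing.ResidueField.residue_smul _ σ a) f

/-- Inertia acts trivially after reduction. -/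
theorem red_smul_of_mem_inertiaSubgroupIn (hM : ((M : ℕ) : IsLocalRing.ResidueField ↥A) ≠ 0)
    (σ : Kbar ≃ₐ[ℚ] Kbar) (hσ : σ ∈ A.inertiaSubgroupIn ℚ)
    (f : ↥(modularFunctionFieldFullC Kbar M)) :
    (gaussRedData A M hM).red (coeffAut Kbar M σ.toRingEquiv • f) = (gaussRedData A M hM).red f := by
  obtain ⟨σ', hσ', rfl⟩ := hσ
  have h := red_decomp_smul A M hM σ' f
  rw [decompResAut_eq_one_of_mem_inertia A σ' hσ'] at h
  exact h.trans (coeffAut_one_smul M _)

end Qbar

end Fermat.Agent.S37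

end
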