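import Fermat.Agent.S37.RedFN
import Fermat.Agent.S37.RedEquiv

/-!
# S37, leaf R2: the Gauss reduction datum on `FN M` and the Galois action.
-/

set_option autoImplicit false

namespace Fermat.Agent.S37

open AlgebraicCurve ModularCurve Fermat.Agent.Lib.RR Fermat.Agent.GAL Fermat.Agent.GAL.RED
  Fermat.Agent.GAL.Hecke Fermat.Agent.GAL.Igusa Fermat.Agent.S24

variable {A : ValuationSubring Kbar} {M : ℕ} [NeZero M]

/-! ### leaf R2: Galois action -/

/-- the automorphism of the residue field induced by an element of the decomposition group -/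
noncomputable def resAut (σ : A.decompositionSubgroup ℚ) :
    IsLocalRing.ResidueField ↥A ≃+* IsLocalRing.ResidueField ↥A :=
  MulSemiringAction.toRingAut (A.decompositionSubgroup ℚ) (IsLocalRing.ResidueField ↥A) σ

theorem resAut_of_inertia (σ : A.decompositionSubgroup ℚ) (hσ : σ ∈ A.inertiaSubgroup ℚ) :
    resAut σ = RingEquiv.refl _ :=
  decompResAut_eq_one_of_mem_inertia A σ hσ

theorem resAut_of_frobenius {ℓ : ℕ} (σ : Kbar ≃ₐ[ℚ] Kbar) (hσ : A.IsFrobeniusAt σ ℓ)
    (x : IsLocalRing.ResidueField ↥A) :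
    resAut ⟨σ, hσ.mem_decompositionSubgroup⟩ x = x ^ ℓ :=
  decompResAut_apply_of_isFrobeniusAt A σ hσ x

/-- The reduction is equivariant for the decomposition group (`red_decomp_smul`). -/
theorem redFN_red_smul (hM : ((M : ℕ) : IsLocalRing.ResidueField ↥A) ≠ 0)
    (σ : A.decompositionSubgroup ℚ) (f : FN M) :
    (redFN A M hM).red (arithmeticGalois (modularFunctionFieldFull M) (σ : Kbar ≃ₐ[ℚ] Kbar) • f) =
      barAut (IsLocalRing.ResidueField ↥A) M (resAut σ) • (redFN A M hM).red f := by
  unfold redFN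
  rw [congrRedData_red, congrRedData_red]
  exact red_decomp_smul A M hM σ ⟨(f : LaurentSeries Kbar), modularFunctionFieldBar_eq_fullC M ▸ f.2⟩

end Fermat.Agent.S37
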