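import Fermat.Agent.S37.RedFN

/-!
# S37, leaf R3: reduction of the Hecke norm.
-/

set_option autoImplicit false

namespace Fermat.Agent.S37

open AlgebraicCurve ModularCurve Fermat.Agent.Lib.RR Fermat.Agent.GAL Fermat.Agent.GAL.RED
  Fermat.Agent.GAL.Hecke Fermat.Agent.GAL.Igusa Fermat.Agent.S24

/-- abstract: reduction of a multiplicative map applied to a fraction. -/
theorem RedHecke_frac {K F k Fb : Type*} [Field K] [Field F] [Algebra K F] [Field k] [Field Fb]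
    [Algebra k Fb] (R : RedData K F k Fb) (N : F →* F) {u P Q : F} (huQ : u * Q = P)
    (hNP : N P ∈ R.O) (hNQ : R.red (N Q) ≠ 0) :
    R.red (N u) = R.red (N P) / R.red (N Q) := by
  have hNQ0 : N Q ≠ 0 := by
    intro h0
    rw [h0] at hNQ
    exact hNQ R.red_zero
  have h1 : N u = N P / N Q := by
    rw [eq_div_iff hNQ0, ← map_mul, huQ]
  rw [h1, R.red_div hNP hNQ]

/-- abstract: the computation with Laurent series in characteristic `ℓ`. -/
theorem RedHecke_series (k : Type*) [Field k] (ℓ : ℕ) [NeZero ℓ] [Fact ℓ.Prime] [CharP k ℓ]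
    (φ : k ≃+* k) (hφ : ∀ x, φ x = x ^ ℓ) (p q : LaurentSeries k) :
    (qExpand k ℓ p * coeffMap (frobenius k ℓ) p) / (qExpand k ℓ q * coeffMap (frobenius k ℓ) q) =
      (coeffMap (φ.symm : k →+* k) (p / q)) ^ ℓ * coeffMap (φ : k →+* k) (p / q) := by
  have hφfrob : (φ : k →+* k) = frobenius k ℓ := by
    ext x
    exact hφ x
  have hsymm : ∀ x : LaurentSeries k,
      coeffMap (frobenius k ℓ) (coeffMap (φ.symm : k →+* k) x) = x := by
    intro x
    rw [← hφfrob, coeffMap_coeffMap]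
    have : ((φ : k →+* k).comp (φ.symm : k →+* k)) = RingHom.id _ := by
      ext y
      simp
    rw [this, coeffMap_id]
  rw [pow_char_eq_qExpand, hsymm, hφfrob, map_div₀, map_div₀, div_mul_div_comm]

variable {A : ValuationSubring Kbar} {M : ℕ} [NeZero M]

/-! ### leaf R3: reduction of the Hecke norm -/

/-- the integral case: `red (N_ℓ P) = P̄(q^ℓ) * φ P̄`. -/
theorem RedHecke_integral (hM : ((M : ℕ) : IsLocalRing.ResidueField ↥A) ≠ 0) (ℓ : ℕ) [NeZero ℓ]
    [Fact ℓ.Prime] (hℓM : ¬ ℓ ∣ M) (hA : A.LiesOverPrime ℓ)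
    [CharP (IsLocalRing.ResidueField A) ℓ] (P : FN M) (p : LaurentSeries ↥A)
    (hP : (P : LaurentSeries Kbar) = incl A p) :
    heckeNorm Kbar M ℓ P ∈ (redFN A M hM).O ∧
      (((redFN A M hM).red (heckeNorm Kbar M ℓ P) : E (IsLocalRing.ResidueField ↥A) M) :
        LaurentSeries (IsLocalRing.ResidueField ↥A)) =
        qExpand _ ℓ (red A p) * coeffMap (frobenius (IsLocalRing.ResidueField A) ℓ) (red A p) := by
  have hx : incl A p ∈ modularFunctionFieldBar M := hP ▸ P.2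
  obtain ⟨y, hy, hyred⟩ := exists_red_heckeNorm M ℓ hℓM A hA p hx
  have hPe : P = ⟨incl A p, hx⟩ := Subtype.ext hP
  rw [← hPe] at hy
  obtain ⟨h1, h2⟩ := redFN_incl hM (heckeNorm Kbar M ℓ P) y hy.symm
  exact ⟨h1, h2.trans hyred⟩

/-- `red (N_ℓ u) = (φ⁻¹ ū)^ℓ * φ ū`, `φ` = Frobenius on the coefficients.
Proof: `u = P / Q` (`exists_frac_of_red_ne_zero`), `heckeNorm` multiplicative,
`Hecke.exists_red_heckeNorm` for `P` and `Q`, and `qExpand ℓ x̄ = (coeffMap φ⁻¹ x̄)^ℓ`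
(`Hecke.pow_char_eq_qExpand`). -/
theorem redFN_red_heckeNorm (hM : ((M : ℕ) : IsLocalRing.ResidueField ↥A) ≠ 0) (ℓ : ℕ) [NeZero ℓ]
    (hℓ : ℓ.Prime) (hℓM : ¬ ℓ ∣ M) (hA : A.LiesOverPrime ℓ)
    (φ : IsLocalRing.ResidueField ↥A ≃+* IsLocalRing.ResidueField ↥A) (hφ : ∀ x, φ x = x ^ ℓ)
    (u : FN M) (hu : (redFN A M hM).red u ≠ 0) :
    (redFN A M hM).red (heckeNorm Kbar M ℓ u) =
      (barAut _ M φ.symm • (redFN A M hM).red u) ^ ℓ * (barAut _ M φ • (redFN A M hM).red u) := by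
  have : Fact ℓ.Prime := ⟨hℓ⟩
  have : CharP (IsLocalRing.ResidueField A) ℓ := charP_residueField A hℓ hA
  obtain ⟨P, Q, p, q, hP, hQ, hp0, hq0, huQ⟩ := exists_frac_of_red_ne_zero hM u hu
  obtain ⟨hPO, hPred⟩ := redFN_incl hM P p hP
  obtain ⟨hQO, hQred⟩ := redFN_incl hM Q q hQ
  obtain ⟨hNPO, hNPred⟩ := RedHecke_integral hM ℓ hℓM hA P p hP
  obtain ⟨hNQO, hNQred⟩ := RedHecke_integral hM ℓ hℓM hA Q q hQ
  have hQr0 : (redFN A M hM).red Q ≠ 0 := by
    intro h0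
    rw [h0] at hQred
    exact hq0 hQred.symm
  have hNQr0 : (redFN A M hM).red (heckeNorm Kbar M ℓ Q) ≠ 0 := by
    intro h0
    rw [h0] at hNQred
    exact mul_ne_zero ((map_ne_zero _).2 hq0) ((map_ne_zero _).2 hq0) hNQred.symm
  have hu2 : (redFN A M hM).red u = (redFN A M hM).red P / (redFN A M hM).red Q :=
    RedHecke_frac (redFN A M hM) (MonoidHom.id _) huQ hPO hQr0
  have hu3 : (redFN A M hM).red (heckeNorm Kbar M ℓ u) =
      (redFN A M hM).red (heckeNorm Kbar M ℓ P) / (redFN A M hM).red (heckeNorm Kbar M ℓ Q) :=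
    RedHecke_frac (redFN A M hM) (heckeNorm Kbar M ℓ) huQ hNPO hNQr0
  rw [hu3, hu2]
  generalize (redFN A M hM).red (heckeNorm Kbar M ℓ P) = NP at hNPred ⊢
  generalize (redFN A M hM).red (heckeNorm Kbar M ℓ Q) = NQ at hNQred ⊢
  generalize (redFN A M hM).red P = rP at hPred ⊢
  generalize (redFN A M hM).red Q = rQ at hQred ⊢
  apply Subtype.ext
  rw [IntermediateField.coe_div, IntermediateField.coe_mul, IntermediateField.coe_pow,
    coe_barAut_smul, coe_barAut_smul, IntermediateField.coe_div, hNPred, hNQred, hPred, hQred]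
  exact RedHecke_series _ ℓ φ hφ _ _

end Fermat.Agent.S37
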