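import Fermat.Agent.S37.Pull
import Fermat.Agent.S37.RedGal
import Fermat.Agent.S37.RedHecke
import Fermat.Agent.S37.Equivariant
import Fermat.Agent.S37.ESDiv
import Fermat.Agent.GAL.KL.Statement

/-!
# S37: the map `R = r_* ∘ π^* : Div (FN N) → Div (E k (N c))` (definitions).
-/

set_option autoImplicit false

namespace Fermat.Agent.S37

open AlgebraicCurve ModularCurve Fermat.Agent.Lib.RR Fermat.Agent.GAL Fermat.Agent.GAL.RED
  Fermat.Agent.GAL.Hecke Fermat.Agent.GAL.Igusa Fermat.Agent.S24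

variable (A : ValuationSubring Kbar) (N c : ℕ) [NeZero N] [NeZero c]

/-- The group of divisors on the level `N c` curve in characteristic `ℓ` of the non zero functions of
level `N`. -/
def prinN [HasPrincipalDivisors (IsLocalRing.ResidueField ↥A) (E (IsLocalRing.ResidueField ↥A) (N * c))] : AddSubgroup (Divisor (IsLocalRing.ResidueField ↥A) (E (IsLocalRing.ResidueField ↥A) (N * c))) where
  carrier := {D | ∃ v : E (IsLocalRing.ResidueField ↥A) (N * c), v ≠ 0 ∧
    (v : LaurentSeries (IsLocalRing.ResidueField ↥A)) ∈ modularFunctionFieldFullC (IsLocalRing.ResidueField ↥A) N ∧ D = divOf v}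
  zero_mem' := ⟨1, one_ne_zero, one_mem _, by
    ext w; simp⟩
  add_mem' := by
    rintro _ _ ⟨v, hv, hvN, rfl⟩ ⟨v', hv', hvN', rfl⟩
    exact ⟨v * v', mul_ne_zero hv hv', mul_mem hvN hvN', (divOf_mul hv hv').symm⟩
  neg_mem' := by
    rintro _ ⟨v, hv, hvN, rfl⟩
    exact ⟨v⁻¹, inv_ne_zero hv, inv_mem hvN, (divOf_inv v).symm⟩

variable {A N c}

/-- `R = r_* ∘ π^*`. -/
noncomputable def Rdiv (r : Place Kbar (FN (N * c)) → Place (IsLocalRing.ResidueField ↥A) (E (IsLocalRing.ResidueField ↥A) (N * c))) :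
    Divisor Kbar (FN N) →+ Divisor (IsLocalRing.ResidueField ↥A) (E (IsLocalRing.ResidueField ↥A) (N * c)) :=
  (Finsupp.mapDomain.addMonoidHom r).comp (pull N c)

theorem Rdiv_apply (r : Place Kbar (FN (N * c)) → Place (IsLocalRing.ResidueField ↥A) (E (IsLocalRing.ResidueField ↥A) (N * c)))
    (D : Divisor Kbar (FN N)) : Rdiv r D = Finsupp.mapDomain r (pull N c D) := rfl

end Fermat.Agent.S37
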