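import Fermat.Agent.S37.RDiv

/-!
# S37, leaf F1.
-/

set_option autoImplicit false

namespace Fermat.Agent.S37

open AlgebraicCurve ModularCurve Fermat.Agent.Lib.RR Fermat.Agent.GAL Fermat.Agent.GAL.RED
  Fermat.Agent.GAL.Hecke Fermat.Agent.GAL.Igusa Fermat.Agent.S24

variable {A : ValuationSubring Kbar} {N c : ℕ} [NeZero N] [NeZero c]

variable [IsAlgClosed (IsLocalRing.ResidueField ↥A)] [Lib.RR.IsFF (IsLocalRing.ResidueField ↥A) (E (IsLocalRing.ResidueField ↥A) (N * c))]
variable (hM : ((N * c : ℕ) : (IsLocalRing.ResidueField ↥A)) ≠ 0)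
  (hg : genusFF Kbar (FN (N * c)) = genusFF (IsLocalRing.ResidueField ↥A) (E (IsLocalRing.ResidueField ↥A) (N * c)))
  {r : Place Kbar (FN (N * c)) → Place (IsLocalRing.ResidueField ↥A) (E (IsLocalRing.ResidueField ↥A) (N * c))}
  (hr : IsRedMap (redFN A (N * c) hM) r)

include hg hr

/-- (F1) `R (div u)` is the divisor of a function of level `N`.
Proof: scale `u' := a u` (`a : Kbar`) so that `red (α u') ≠ 0` (`redFN_isCartesian.exists_scale`);
`R (div u) = r_* div (α u') = div (red (α u'))` (`pull_divOf`, `hr.map_divOf`); the reduction of an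
element of level `N` has level `N`: `α u' = P / Q` with `P, Q ∈ A((q)) ∩ FN N` primitive
(`Gauss.normalise_frac` at level `N`, which also gives `red P, red Q ∈ modularFunctionFieldFullC k N`),
`redFN_incl`. -/
theorem Rdiv_divOf_mem (u : FN N) (hu : u ≠ 0) : Rdiv r (divOf u) ∈ prinN A N c := by
  have hN : ((N : ℕ) : IsLocalRing.ResidueField ↥A) ≠ 0 := by
    intro h
    apply hM
    rw [Nat.cast_mul, h, zero_mul]
  -- scale at level `N`
  obtain ⟨a, ha0, hau⟩ := (redFN_isCartesian (A := A) (M := N) hN).exists_scale hu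
  obtain ⟨P, Q, p, q, hP, hQ, hp, hq, hPQ⟩ := exists_frac_of_red_ne_zero hN _ hau
  -- level `N`
  obtain ⟨-, hPred⟩ := redFN_incl hN P p hP
  obtain ⟨-, hQred⟩ := redFN_incl hN Q q hQ
  -- level `N * c`
  have hP' : ((heckeAlphaBar Kbar N c P : FN (N * c)) : LaurentSeries Kbar) = incl A p := by
    rw [coe_heckeAlphaBar]; exact hP
  have hQ' : ((heckeAlphaBar Kbar N c Q : FN (N * c)) : LaurentSeries Kbar) = incl A q := by
    rw [coe_heckeAlphaBar]; exact hQ
  obtain ⟨hPO, hPred'⟩ := redFN_incl hM _ p hP'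
  obtain ⟨hQO, hQred'⟩ := redFN_incl hM _ q hQ'
  set R := redFN A (N * c) hM with hR
  have hPne : R.red (heckeAlphaBar Kbar N c P) ≠ 0 := by
    intro h
    rw [h] at hPred'
    exact hp hPred'.symm
  have hQne : R.red (heckeAlphaBar Kbar N c Q) ≠ 0 := by
    intro h
    rw [h] at hQred'
    exact hq hQred'.symm
  have hQ0 : heckeAlphaBar Kbar N c Q ≠ 0 := R.ne_zero_of_red_ne_zero hQne
  have hαu0 : heckeAlphaBar Kbar N c u ≠ 0 := by
    intro h
    exact hu ((map_eq_zero _).1 h)
  have ha0' : algebraMap Kbar (FN (N * c)) a ≠ 0 := by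
    intro h
    exact ha0 ((map_eq_zero _).1 h)
  have hdiv : algebraMap Kbar (FN (N * c)) a * heckeAlphaBar Kbar N c u
      = heckeAlphaBar Kbar N c P / heckeAlphaBar Kbar N c Q := by
    rw [eq_div_iff hQ0, ← hPQ, map_mul, map_mul, AlgHom.commutes]
  have hred : R.red (algebraMap Kbar (FN (N * c)) a * heckeAlphaBar Kbar N c u)
      = R.red (heckeAlphaBar Kbar N c P) / R.red (heckeAlphaBar Kbar N c Q) := by
    rw [hdiv, R.red_div hPO hQne]
  have hredne : R.red (algebraMap Kbar (FN (N * c)) a * heckeAlphaBar Kbar N c u) ≠ 0 := by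
    rw [hred]
    exact div_ne_zero hPne hQne
  refine ⟨R.red (algebraMap Kbar (FN (N * c)) a * heckeAlphaBar Kbar N c u), hredne, ?_, ?_⟩
  · rw [hred]
    have h1 : ((R.red (heckeAlphaBar Kbar N c P) / R.red (heckeAlphaBar Kbar N c Q) :
        E (IsLocalRing.ResidueField ↥A) (N * c)) : LaurentSeries (IsLocalRing.ResidueField ↥A))
        = red A p / red A q := by
      rw [← hPred', ← hQred']
      rfl
    rw [h1, ← hPred, ← hQred]
    exact div_mem (SetLike.coe_mem _) (SetLike.coe_mem _)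
  · rw [Rdiv_apply, pull_divOf, ← hr.map_divOf _ hredne, divOf_mul ha0' hαu0, divOf_algebraMap,
      zero_add]

end Fermat.Agent.S37
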