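import Fermat.Agent.S37.RDiv

/-!
# S37, leaf F2.
-/

set_option autoImplicit false

namespace Fermat.Agent.S37

open AlgebraicCurve ModularCurve Fermat.Agent.Lib.RR Fermat.Agent.GAL Fermat.Agent.GAL.RED
  Fermat.Agent.GAL.Hecke Fermat.Agent.GAL.Igusa Fermat.Agent.S24

variable {A : ValuationSubring Kbar} {N c : ℕ} [NeZero N] [NeZero c]

variable [IsAlgClosed (IsLocalRing.ResidueField ↥A)] [Lib.RR.IsFF (IsLocalRing.ResidueField ↥A) (E (IsLocalRing.ResidueField ↥A) (N * c))]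
variable (hM : ((N * c : ℕ) : (IsLocalRing.ResidueField ↥A)) ≠ 0)
  (hg : genusFF Kbar (FN (N * c)) = genusFF (IsLocalRing.ResidueField ↥A) (E (IsLocalRing.ResidueField ↥A) (N * c)))
  {r : Place Kbar (FN (N * c)) → Place (IsLocalRing.ResidueField ↥A) (E (IsLocalRing.ResidueField ↥A) (N * c))}
  (hr : IsRedMap (redFN A (N * c) hM) r)

include hg hr

/-- (F2) Galois equivariance (`pull_smul`, `IsRedMap.mapDomain_smul`, `redFN_red_smul`). -/
theorem Rdiv_smul (σ : A.decompositionSubgroup ℚ) (D : Divisor Kbar (FN N)) :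
    Rdiv r (arithmeticGalois (modularFunctionFieldFull N) (σ : Kbar ≃ₐ[ℚ] Kbar) • D) =
      barAut (IsLocalRing.ResidueField ↥A) (N * c) (resAut σ) • Rdiv r D := by
  rw [Rdiv_apply, Rdiv_apply, pull_smul]
  exact IsRedMap.mapDomain_smul hg hr _ _ (fun f => redFN_red_smul hM σ f) _

end Fermat.Agent.S37
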