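import Fermat.Agent.S37.RDiv

/-!
# S37, leaf F3.
-/

set_option autoImplicit false

namespace Fermat.Agent.S37

open AlgebraicCurve ModularCurve Fermat.Agent.Lib.RR Fermat.Agent.GAL Fermat.Agent.GAL.RED
  Fermat.Agent.GAL.Hecke Fermat.Agent.GAL.Igusa Fermat.Agent.S24

section aux

variable {k Fb : Type*} [Field k] [Field Fb] [Algebra k Fb]

/-- `Θ E = g • E + ℓ • (g' • E)`. -/
noncomputable def RDivF3_theta (g g' : SemilinearAut k Fb) (ℓ : ℕ) :
    Divisor k Fb →+ Divisor k Fb :=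
  DistribSMul.toAddMonoidHom (Divisor k Fb) g +
    ℓ • DistribSMul.toAddMonoidHom (Divisor k Fb) g'

theorem RDivF3_theta_apply (g g' : SemilinearAut k Fb) (ℓ : ℕ) (E : Divisor k Fb) :
    RDivF3_theta g g' ℓ E = g • E + ℓ • (g' • E) := rfl

theorem RDivF3_degree_theta (g g' : SemilinearAut k Fb) (ℓ : ℕ) (E : Divisor k Fb) :
    Divisor.degree (RDivF3_theta g g' ℓ E) = ((ℓ : ℤ) + 1) * Divisor.degree E := by
  rw [RDivF3_theta_apply, map_add, map_nsmul, SemilinearAut.degree_smul,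
    SemilinearAut.degree_smul]
  simp only [nsmul_eq_mul]
  ring

theorem RDivF3_theta_finite (g g' : SemilinearAut k Fb) (ℓ : ℕ) (y : Place k Fb) :
    {Q : Place k Fb | RDivF3_theta g g' ℓ (pt Q) y ≠ 0}.Finite := by
  classical
  refine Set.Finite.subset (Set.toFinite ({g⁻¹ • y, g'⁻¹ • y} : Set (Place k Fb))) ?_
  intro Q hQ
  rw [Set.mem_ofPred_eq, RDivF3_theta_apply, Finsupp.add_apply, Finsupp.smul_apply,
    SemilinearAut.divisor_smul_apply, SemilinearAut.divisor_smul_apply] at hQ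
  by_contra hcon
  rw [Set.mem_insert_iff, Set.mem_singleton_iff, not_or] at hcon
  apply hQ
  rw [pt, Finsupp.single_apply, Finsupp.single_apply, if_neg hcon.1, if_neg hcon.2]
  simp

end aux

variable {A : ValuationSubring Kbar} {N c : ℕ} [NeZero N] [NeZero c]

variable [IsAlgClosed (IsLocalRing.ResidueField ↥A)] [Lib.RR.IsFF (IsLocalRing.ResidueField ↥A) (E (IsLocalRing.ResidueField ↥A) (N * c))]
variable (hM : ((N * c : ℕ) : (IsLocalRing.ResidueField ↥A)) ≠ 0)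
  (hg : genusFF Kbar (FN (N * c)) = genusFF (IsLocalRing.ResidueField ↥A) (E (IsLocalRing.ResidueField ↥A) (N * c)))
  {r : Place Kbar (FN (N * c)) → Place (IsLocalRing.ResidueField ↥A) (E (IsLocalRing.ResidueField ↥A) (N * c))}
  (hr : IsRedMap (redFN A (N * c) hM) r)

include hg hr

/-- (F3) Eichler-Shimura on divisors.
Proof: `pull_heckeDiv`, then `mapDomain_comm_of_norm` at level `N c` with `T := heckeDiv (N c) ℓ`,
`Nm := heckeNorm Kbar (N c) ℓ`, `Θ E := φ • E + ℓ • (φ⁻¹ • E)`, `n := ℓ + 1`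
(`heckeDiv_nonneg`, `degree_heckeDiv`, `SemilinearAut.degree_smul`, `divOf_heckeNorm`,
`redFN_red_heckeNorm`, `divOf_mul`, `divOf_pow`, `divOf_smul`; `Θ (pt Q) y ≠ 0` implies
`Q = φ⁻¹ • y` or `Q = φ • y`). -/
theorem Rdiv_heckeDiv (ℓ : ℕ) [NeZero ℓ] (hℓ : ℓ.Prime) (hℓNc : ¬ ℓ ∣ N * c)
    (hA : A.LiesOverPrime ℓ) (φ : (IsLocalRing.ResidueField ↥A) ≃+* (IsLocalRing.ResidueField ↥A)) (hφ : ∀ x, φ x = x ^ ℓ) (D : Divisor Kbar (FN N)) :
    Rdiv r (heckeDiv N ℓ D) =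
      barAut (IsLocalRing.ResidueField ↥A) (N * c) φ • Rdiv r D + ℓ • (barAut (IsLocalRing.ResidueField ↥A) (N * c) φ.symm • Rdiv r D) := by
  classical
  rw [Rdiv_apply, pull_heckeDiv N c ℓ hℓ hℓNc, Rdiv_apply, ← RDivF3_theta_apply]
  refine mapDomain_comm_of_norm (redFN_isCartesian hM) hg hr (heckeDiv (N * c) ℓ)
    (RDivF3_theta _ _ ℓ) (heckeNorm Kbar (N * c) ℓ)
    (fun D h => heckeDiv_nonneg _ _ h) ((ℓ : ℤ) + 1) (degree_heckeDiv _ _ hℓ hℓNc)
    (RDivF3_degree_theta _ _ ℓ) (RDivF3_theta_finite _ _ ℓ) (divOf_heckeNorm _ _) ?_ _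
  intro u hu
  have h1 := redFN_red_heckeNorm hM ℓ hℓ hℓNc hA φ hφ u hu
  have ha : barAut (IsLocalRing.ResidueField ↥A) (N * c) φ.symm • (redFN A (N * c) hM).red u ≠ 0 :=
    (smul_ne_zero_iff_ne _).mpr hu
  have hb : barAut (IsLocalRing.ResidueField ↥A) (N * c) φ • (redFN A (N * c) hM).red u ≠ 0 :=
    (smul_ne_zero_iff_ne _).mpr hu
  refine ⟨?_, ?_⟩
  · rw [h1]
    exact mul_ne_zero (pow_ne_zero _ ha) hb
  · rw [h1, divOf_mul (pow_ne_zero _ ha) hb, divOf_pow, divOf_smul, divOf_smul,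
      RDivF3_theta_apply, add_comm]

end Fermat.Agent.S37
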