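import Fermat.Agent.S37.RDiv
import Fermat.Agent.S37.RDivF4Core
import Fermat.Agent.S18

/-!
# S37, leaf F4.
-/

set_option autoImplicit false

namespace Fermat.Agent.S37

open AlgebraicCurve ModularCurve Fermat.Agent.Lib.RR Fermat.Agent.GAL Fermat.Agent.GAL.RED
  Fermat.Agent.GAL.Hecke Fermat.Agent.GAL.Igusa Fermat.Agent.S24

variable {A : ValuationSubring Kbar} {N c : ℕ} [NeZero N] [NeZero c]

variable [IsAlgClosed (IsLocalRing.ResidueField ↥A)] [Lib.RR.IsFF (IsLocalRing.ResidueField ↥A) (E (IsLocalRing.ResidueField ↥A) (N * c))]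
variable (hM : ((N * c : ℕ) : (IsLocalRing.ResidueField ↥A)) ≠ 0)
  (hg : genusFF Kbar (FN (N * c)) = genusFF (IsLocalRing.ResidueField ↥A) (E (IsLocalRing.ResidueField ↥A) (N * c)))
  {r : Place Kbar (FN (N * c)) → Place (IsLocalRing.ResidueField ↥A) (E (IsLocalRing.ResidueField ↥A) (N * c))}
  (hr : IsRedMap (redFN A (N * c) hM) r)

/-- "`x` (level `N`) has an integral `q`-expansion with nonzero reduction `x'`". -/
def F4Int (A : ValuationSubring Kbar) (N c : ℕ) (x : FN N)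
    (x' : E (IsLocalRing.ResidueField ↥A) (N * c)) : Prop :=
  ∃ y : LaurentSeries A, (x : LaurentSeries Kbar) = incl A y ∧
    (x' : LaurentSeries (IsLocalRing.ResidueField ↥A)) = red A y ∧ x' ≠ 0

include hg hr

/-- (F4) injectivity on torsion prime to the residue characteristic. -/
theorem principal_of_Rdiv_mem (m : ℕ) (hm : (m : (IsLocalRing.ResidueField ↥A)) ≠ 0) (hINJ : Hecke.INJ N m A)
    (D : Divisor Kbar (FN N)) (f : FN N) (hf : f ≠ 0) (hD : m • D = divOf f)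
    (hR : Rdiv r D ∈ prinN A N c) : ∃ w : FN N, w ≠ 0 ∧ D = divOf w := by
  classical
  obtain ⟨g, hg0, hgL, hgD⟩ := hR
  have hN : ((N : ℕ) : IsLocalRing.ResidueField ↥A) ≠ 0 := by
    intro h
    apply hM
    rw [Nat.cast_mul, h, zero_mul]
  have hm0 : m ≠ 0 := by
    rintro rfl
    exact hm (by simp)
  have hle : modularFunctionFieldFullC (IsLocalRing.ResidueField ↥A) N ≤
      modularFunctionFieldFullC (IsLocalRing.ResidueField ↥A) (N * c) :=
    full_degeneracyC_le _ (Dvd.intro c rfl)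
  refine F4core (Rdiv r) (F4Int A N c)
    (fun x' => (x' : LaurentSeries (IsLocalRing.ResidueField ↥A)) ∈
      modularFunctionFieldFullC (IsLocalRing.ResidueField ↥A) N)
    ?_ ?_ ?_ ?_ ?_ ?_ ?_ ?_ m hm0 ?_ ?_ D f hf hD g hg0 hgL hgD
  · exact ⟨1, by simp, by simp, one_ne_zero⟩
  · rintro x y x' y' ⟨a, ha, ha', hx'⟩ ⟨b, hb, hb', hy'⟩
    refine ⟨a * b, ?_, ?_, mul_ne_zero hx' hy'⟩
    · rw [map_mul, ← ha, ← hb]; rfl
    · rw [map_mul, ← ha', ← hb']; rfl
  · rintro x x' ⟨a, ha, ha', hx'⟩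
    refine ⟨?_, hx'⟩
    rintro rfl
    apply hx'
    have h0 : a = 0 := incl_injective A (by rw [← ha, map_zero]; rfl)
    apply Subtype.ext
    rw [ha', h0, map_zero]; rfl
  · rintro x x' ⟨y, hx, hx', hne⟩
    have hx2 : ((heckeAlphaBar Kbar N c x : FN (N * c)) : LaurentSeries Kbar) = incl A y := by
      rw [coe_heckeAlphaBar]; exact hx
    obtain ⟨-, hred⟩ := redFN_incl hM _ y hx2
    have hxeq : (redFN A (N * c) hM).red (heckeAlphaBar Kbar N c x) = x' :=
      Subtype.ext (hred.trans hx'.symm)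
    rw [Rdiv_apply, pull_divOf, ← hxeq]
    exact hr.map_divOf _ (by rw [hxeq]; exact hne)
  · intro f hf
    obtain ⟨c₀, P, Q, hc, hP0, hQ0, hP, hQ, hPr, hQr, e⟩ := S18.exists_normalise' A N hN f hf
    refine ⟨c₀, ⟨incl A P, hP⟩, ⟨incl A Q, hQ⟩, ⟨red A P, hle hPr⟩, ⟨red A Q, hle hQr⟩, hc,
      ⟨P, rfl, rfl, fun h0 => hP0 (congrArg Subtype.val h0)⟩,
      ⟨Q, rfl, rfl, fun h0 => hQ0 (congrArg Subtype.val h0)⟩, Subtype.ext e⟩
  · intro d g hgl
    exact mul_mem ((modularFunctionFieldFullC (IsLocalRing.ResidueField ↥A) N).algebraMap_mem d) hgl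
  · intro x' hxL hx'
    obtain ⟨W, S, hW, hS, hWr, hSr, hS0, e⟩ := S18.exists_lift_frac A N hN x' hxL
    have hx'0 : (x' : LaurentSeries (IsLocalRing.ResidueField A)) ≠ 0 :=
      fun h0 => hx' (Subtype.ext h0)
    refine ⟨⟨incl A W, hW⟩, ⟨incl A S, hS⟩, ⟨red A W, hle hWr⟩, ⟨red A S, hle hSr⟩,
      ⟨W, rfl, rfl, fun h0 => ?_⟩,
      ⟨S, rfl, rfl, fun h0 => hS0 (congrArg Subtype.val h0)⟩, Subtype.ext e⟩
    have h1 : red A W = 0 := congrArg Subtype.val h0
    rw [e] at h1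
    exact mul_ne_zero hx'0 hS0 h1
  · intro x' hx'
    obtain ⟨c₁, hc₁⟩ := RED.mem_range_of_ord_nonneg (f := x') (fun P => (hx' P).ge)
    exact ⟨c₁, hc₁.symm⟩
  · intro c₁
    exact IsAlgClosed.exists_pow_nat_eq c₁ (Nat.pos_of_ne_zero hm0)
  · rintro P Q P' ⟨a, ha, ha', hP'⟩ ⟨b, hb, hb', -⟩ hdvd
    have hb0 : red A b ≠ 0 := by
      rw [← hb']
      exact fun h0 => hP' (Subtype.ext h0)
    have hQ0 : Q ≠ 0 := by
      rintro rfl
      have h0 : b = 0 := incl_injective A (by rw [← hb, map_zero]; rfl)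
      exact hb0 (by rw [h0, map_zero])
    have hP0 : P ≠ 0 := by
      rintro rfl
      have h0 : a = 0 := incl_injective A (by rw [← ha, map_zero]; rfl)
      apply hb0
      rw [← hb', ha', h0, map_zero]
    obtain ⟨y, hy⟩ := hINJ a b (by rw [← ha]; exact P.2)
      (by rw [← hb]; exact Q.2) (by rw [← ha', ← hb']) hb0 (Units.mk0 (P / Q) (div_ne_zero hP0 hQ0))
      (by
        rw [← ha, ← hb, Units.val_mk0]
        have h1 : P / Q * Q = P := div_mul_cancel₀ _ hQ0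
        exact congrArg Subtype.val h1)
      (fun v => by rw [Units.val_mk0]; exact hdvd v)
    refine ⟨(y : FN N), ?_⟩
    have h1 := congrArg Units.val hy
    rwa [Units.val_pow_eq_pow_val, Units.val_mk0] at h1

end Fermat.Agent.S37
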