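import Fermat.Agent.S37.RDiv

/-!
# S37, leaf F5.
-/

set_option autoImplicit false
set_option linter.unusedSectionVars false

namespace Fermat.Agent.S37

open AlgebraicCurve ModularCurve Fermat.Agent.Lib.RR Fermat.Agent.GAL Fermat.Agent.GAL.RED
  Fermat.Agent.GAL.Hecke Fermat.Agent.GAL.Igusa Fermat.Agent.S24

variable {A : ValuationSubring Kbar} {N c : ℕ} [NeZero N] [NeZero c]

variable [IsAlgClosed (IsLocalRing.ResidueField ↥A)] [Lib.RR.IsFF (IsLocalRing.ResidueField ↥A) (E (IsLocalRing.ResidueField ↥A) (N * c))]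
variable (hM : ((N * c : ℕ) : (IsLocalRing.ResidueField ↥A)) ≠ 0)
  (hg : genusFF Kbar (FN (N * c)) = genusFF (IsLocalRing.ResidueField ↥A) (E (IsLocalRing.ResidueField ↥A) (N * c)))
  {r : Place Kbar (FN (N * c)) → Place (IsLocalRing.ResidueField ↥A) (E (IsLocalRing.ResidueField ↥A) (N * c))}
  (hr : IsRedMap (redFN A (N * c) hM) r)

include hg hr

omit hg hr in
/-- (F5) `prinN` is stable under coefficientwise automorphisms (`divOf_smul`,
`coeffMap_mem_fullC`). -/
theorem smul_mem_prinN (τ : (IsLocalRing.ResidueField ↥A) ≃+* (IsLocalRing.ResidueField ↥A)) {D : Divisor (IsLocalRing.ResidueField ↥A) (E (IsLocalRing.ResidueField ↥A) (N * c))} (hD : D ∈ prinN A N c) :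
    barAut (IsLocalRing.ResidueField ↥A) (N * c) τ • D ∈ prinN A N c := by
  obtain ⟨v, hv, hvN, rfl⟩ := hD
  refine ⟨barAut (IsLocalRing.ResidueField ↥A) (N * c) τ • v, ?_, ?_, (divOf_smul _ v).symm⟩
  · exact (smul_ne_zero_iff_ne _).2 hv
  · rw [coe_barAut_smul]
    exact coeffMap_mem_fullC _ hvN

end Fermat.Agent.S37
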