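import Fermat.Agent.S37.Abstract
import Fermat.Agent.S37.RDivF1
import Fermat.Agent.S37.RDivF2
import Fermat.Agent.S37.RDivF3
import Fermat.Agent.S37.RDivF4
import Fermat.Agent.S37.RDivF5
import Fermat.Agent.GAL.Igusa.Main
import Fermat.Agent.GAL.INJ.ResAlgClosed
import Fermat.Agent.Lib.Frobenius

/-!
# S37: assembly (leaf M).

Inputs still open elsewhere: `Igusa.CuspUpper`, `Igusa.CuspLower` (GAL-IGUSA), `KL.KLAll`
(= `KLNeat` + level descent).
-/

set_option autoImplicit false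
set_option linter.style.haveILetI false

namespace Fermat.Agent.S37

open AlgebraicCurve ModularCurve Fermat.Agent.Lib.RR Fermat.Agent.GAL Fermat.Agent.GAL.RED
  Fermat.Agent.GAL.Hecke Fermat.Agent.GAL.Igusa Fermat.Agent.S24

theorem genusFF_congr {K Ω : Type*} [Field K] [Field Ω] [Algebra K Ω]
    {E₁ E₂ : IntermediateField K Ω} (h : E₁ = E₂) : genusFF K ↥E₁ = genusFF K ↥E₂ := by
  subst h; rfl

theorem Main_mk_eq_zero_iff {K F : Type*} [Field K] [Field F] [Algebra K F]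
    (D : Divisor.degZero (K := K) (F := F)) :
    Pic0.mk D = 0 ↔ ∃ f : F, f ≠ 0 ∧ ∀ v : Place K F, (D : Divisor K F) v = v.ord f := by
  unfold Pic0.mk
  rw [QuotientAddGroup.eq_zero_iff, AddSubgroup.mem_addSubgroupOf]
  rfl

theorem Main_mk_nsmul {K F : Type*} [Field K] [Field F] [Algebra K F]
    (D : Divisor.degZero (K := K) (F := F)) (n : ℕ) :
    Pic0.mk (n • D) = n • Pic0.mk D :=
  map_nsmul (QuotientAddGroup.mk' ((Divisor.principal (K := K) (F := F)).addSubgroupOf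
          (Divisor.degZero (K := K) (F := F)))) n D

theorem Main_coe_nsmul {K F : Type*} [Field K] [Field F] [Algebra K F]
    (D : Divisor.degZero (K := K) (F := F)) (n : ℕ) :
    ((n • D : Divisor.degZero (K := K) (F := F)) : Divisor K F) = n • (D : Divisor K F) :=
  AddSubgroup.coe_nsmul _ _ _

theorem Main_eq_divOf {K F : Type*} [Field K] [Field F] [Algebra K F] [HasPrincipalDivisors K F]
    {D : Divisor K F} {f : F} (h : ∀ v : Place K F, D v = v.ord f) : D = divOf f := by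
  ext v
  rw [divOf_apply, h v]

set_option maxHeartbeats 1000000 in
/-- The core of the assembly, for an auxiliary factor `c` of the level. -/
theorem Main_aux (hKL : KL.KLAll) (N p c : ℕ) [NeZero N] [NeZero c]
    (hcomm : ModularCurve.HeckeOperatorsCommuteBar N)
    (ℓ : ℕ) (hℓ : ℓ.Prime) (hℓNc : ¬ ℓ ∣ N * c) (hℓp : ¬ ℓ ∣ p)
    (A : ValuationSubring Kbar) (hA : A.LiesOverPrime ℓ)
    (hgen : genusFF (IsLocalRing.ResidueField ↥A) (E (IsLocalRing.ResidueField ↥A) (N * c)) =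
      genusFF Kbar (E Kbar (N * c))) :
    letI := ModularCurve.heckeModuleBar N
    ∀ (_ : SMulCommClass (AlgebraicClosure ℚ ≃ₐ[ℚ] AlgebraicClosure ℚ) ModularCurve.HeckeAlg
      (ModularCurve.JZero N)),
      ∃ (J' : Type) (_ : AddCommGroup J') (_ : Module HeckeAlg J') (sp : JZero N →+ J')
        (F : J' →+ J'),
        IsSpecialization (K := ℚ) p (JZero N) J' A ℓ sp F ∧ SpecialFibreRelation J' ℓ hℓ F := by
  letI := ModularCurve.heckeModuleBar N
  intro _
  haveI hchar := charP_residueField A hℓ hA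
  haveI : NeZero ℓ := ⟨hℓ.ne_zero⟩
  have hM : ((N * c : ℕ) : IsLocalRing.ResidueField ↥A) ≠ 0 := by
    rw [Ne, CharP.cast_eq_zero_iff (IsLocalRing.ResidueField ↥A) ℓ]
    exact hℓNc
  have hN : ((N : ℕ) : IsLocalRing.ResidueField ↥A) ≠ 0 := by
    rw [Ne, CharP.cast_eq_zero_iff (IsLocalRing.ResidueField ↥A) ℓ]
    exact fun h => hℓNc (h.mul_right c)
  haveI := INJ.isAlgClosed_residueField A
  haveI := Igusa.isFF_E (IsLocalRing.ResidueField ↥A) (N * c) hM
  have hg : genusFF Kbar (FN (N * c)) =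
      genusFF (IsLocalRing.ResidueField ↥A) (E (IsLocalRing.ResidueField ↥A) (N * c)) := by
    rw [hgen]
    exact genusFF_congr (modularFunctionFieldBar_eq_fullC (N * c))
  obtain ⟨r, hr⟩ := RED.exists_isRedMap (redFN A (N * c) hM) (redFN_isCartesian hM) hg
  have hGal := Lib.Frobenius.isGalois_algebraicClosure inferInstance
  obtain ⟨σ₀, hσ₀⟩ := Lib.Frobenius.exists_isFrobeniusAt A hℓ hA
  set φ := resAut ⟨σ₀, hσ₀.mem_decompositionSubgroup⟩ with hφdef
  have hφ : ∀ x, φ x = x ^ ℓ := resAut_of_frobenius σ₀ hσ₀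
  -- the target group
  let ρ0 : Divisor.degZero (K := Kbar) (F := FN N) →+
      (Divisor (IsLocalRing.ResidueField ↥A) (E (IsLocalRing.ResidueField ↥A) (N * c)) ⧸
        prinN A N c) :=
    (QuotientAddGroup.mk' (prinN A N c)).comp ((Rdiv r).comp (AddSubgroup.subtype _))
  have hρ0 : ∀ D ∈ (Divisor.principal (K := Kbar) (F := FN N)).addSubgroupOf
      (Divisor.degZero (K := Kbar) (F := FN N)), ρ0 D = 0 := by
    intro D hD
    rw [AddSubgroup.mem_addSubgroupOf] at hD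
    obtain ⟨f, hf, hD⟩ := hD
    have h1 : (D : Divisor Kbar (FN N)) = divOf f := Main_eq_divOf hD
    show (QuotientAddGroup.mk (Rdiv r (D : Divisor Kbar (FN N))) :
      Divisor (IsLocalRing.ResidueField ↥A) (E (IsLocalRing.ResidueField ↥A) (N * c)) ⧸
        prinN A N c) = 0
    rw [QuotientAddGroup.eq_zero_iff, h1]
    exact Rdiv_divOf_mem hM hg hr f hf
  let ρ : JZero N →+
      (Divisor (IsLocalRing.ResidueField ↥A) (E (IsLocalRing.ResidueField ↥A) (N * c)) ⧸
        prinN A N c) := QuotientAddGroup.lift _ ρ0 hρ0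
  have hρmk : ∀ D : Divisor.degZero (K := Kbar) (F := FN N),
      ρ (Pic0.mk D) = QuotientAddGroup.mk (Rdiv r (D : Divisor Kbar (FN N))) := fun D => rfl
  -- the operators induced by coefficientwise automorphisms
  let Op : (IsLocalRing.ResidueField ↥A ≃+* IsLocalRing.ResidueField ↥A) →
      ((Divisor (IsLocalRing.ResidueField ↥A) (E (IsLocalRing.ResidueField ↥A) (N * c)) ⧸
        prinN A N c) →+
      (Divisor (IsLocalRing.ResidueField ↥A) (E (IsLocalRing.ResidueField ↥A) (N * c)) ⧸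
        prinN A N c)) := fun τ =>
    QuotientAddGroup.map _ _
      (DistribSMul.toAddMonoidHom _ (barAut (IsLocalRing.ResidueField ↥A) (N * c) τ))
      (fun D hD => smul_mem_prinN τ hD)
  have hOp : ∀ τ (D : Divisor (IsLocalRing.ResidueField ↥A)
      (E (IsLocalRing.ResidueField ↥A) (N * c))),
      Op τ (QuotientAddGroup.mk D) =
        QuotientAddGroup.mk (barAut (IsLocalRing.ResidueField ↥A) (N * c) τ • D) :=
    fun τ D => rfl
  -- Galois equivariance
  have hgal : ∀ (τ : A.decompositionSubgroup ℚ) (x : JZero N),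
      ρ ((τ : Kbar ≃ₐ[ℚ] Kbar) • x) = Op (resAut τ) (ρ x) := by
    intro τ x
    obtain ⟨D, rfl⟩ := Pic0.mk_surjective x
    rw [galois_smul_pic0_def, SemilinearAut.pic0_smul_mk, hρmk, hρmk, hOp,
      SemilinearAut.coe_degZeroSMulHom, Rdiv_smul hM hg hr]
  refine exists_specialization p (JZero N) A ℓ hℓ ρ (Op φ) (Op φ.symm) ?_ ?_ ?_ ?_ ?_ ⟨σ₀, hσ₀⟩
  · -- `Ψ ∘ Φ = id`
    intro y
    obtain ⟨D, rfl⟩ := QuotientAddGroup.mk_surjective y
    rw [hOp, hOp, barAut_symm, inv_smul_smul]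
  · -- inertia
    intro σ hσ x
    obtain ⟨τ, hτ, rfl⟩ := Subgroup.mem_map.1 hσ
    have h1 := hgal τ x
    rw [resAut_of_inertia τ hτ] at h1
    refine h1.trans ?_
    obtain ⟨D, hD⟩ := QuotientAddGroup.mk_surjective (ρ x)
    rw [← hD, hOp, barAut_one, one_smul]
  · -- Frobenius
    intro σ hσ x
    have h1 := hgal ⟨σ, hσ.mem_decompositionSubgroup⟩ x
    have h2 : resAut ⟨σ, hσ.mem_decompositionSubgroup⟩ = φ := by
      apply RingEquiv.ext
      intro y
      rw [resAut_of_frobenius σ hσ, hφ]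
    rw [h2] at h1
    exact h1
  · -- Hecke
    intro x
    obtain ⟨D, rfl⟩ := Pic0.mk_surjective x
    have h0 : heckeGen ⟨ℓ, hℓ⟩ • Pic0.mk D = heckeOperatorBar N ⟨ℓ, hℓ⟩ (Pic0.mk D) :=
      heckeModuleBar_heckeGen_smul hcomm ⟨ℓ, hℓ⟩ (Pic0.mk D)
    have h1 : heckeOperatorBar N ⟨ℓ, hℓ⟩ (Pic0.mk D) =
        Pic0.mk ⟨heckeDiv N ℓ D, heckeDiv_mem_degZero N ℓ D.2⟩ :=
      (heckeOperatorBar_apply N ⟨ℓ, hℓ⟩ (Pic0.mk D)).trans (heckeOperatorAlong_mk N ℓ D)
    refine (congrArg ρ (h0.trans h1)).trans ?_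
    rw [hρmk, hρmk, hOp, hOp]
    show (QuotientAddGroup.mk (Rdiv r (heckeDiv N ℓ (D : Divisor Kbar (FN N)))) : _ ⧸ prinN A N c) = _
    rw [Rdiv_heckeDiv hM hg hr ℓ hℓ hℓNc hA φ hφ]
    rfl
  · -- injectivity on torsion
    rintro x ⟨n, hn⟩ hx
    obtain ⟨D, rfl⟩ := Pic0.mk_surjective x
    have hm : ((p ^ n : ℕ) : IsLocalRing.ResidueField ↥A) ≠ 0 := by
      rw [Ne, CharP.cast_eq_zero_iff (IsLocalRing.ResidueField ↥A) ℓ]
      exact fun h => hℓp (hℓ.dvd_of_dvd_pow h)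
    have h1 : Pic0.mk (p ^ n • D) = 0 := by
      rw [Main_mk_nsmul]
      exact hn
    obtain ⟨f, hf, hfD⟩ := (Main_mk_eq_zero_iff _).1 h1
    have h3 : p ^ n • (D : Divisor Kbar (FN N)) = divOf f := by
      rw [← Main_coe_nsmul]
      exact Main_eq_divOf hfD
    have h4 : Rdiv r (D : Divisor Kbar (FN N)) ∈ prinN A N c := by
      rw [hρmk] at hx
      exact (QuotientAddGroup.eq_zero_iff _).1 hx
    obtain ⟨w, hw, hDw⟩ := principal_of_Rdiv_mem hM hg hr (p ^ n) hm
      (hKL N (NeZero.ne N) A (p ^ n) hN hm) (D : Divisor Kbar (FN N)) f hf h3 h4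
    exact (Main_mk_eq_zero_iff _).2 ⟨w, hw, fun v => by rw [hDw, divOf_apply]⟩

/-- The statement of S37, modulo the three open inputs. -/
theorem specializationExists_of (hU : Igusa.CuspUpper) (hL : Igusa.CuspLower) (hKL : KL.KLAll)
    (N p : ℕ) [NeZero N] (hcomm : ModularCurve.HeckeOperatorsCommuteBar N) :
    letI := ModularCurve.heckeModuleBar N
    ∀ (_ : SMulCommClass (AlgebraicClosure ℚ ≃ₐ[ℚ] AlgebraicClosure ℚ) ModularCurve.HeckeAlg
      (ModularCurve.JZero N)),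
      ModularCurve.SpecializationExists (K := ℚ) (L := AlgebraicClosure ℚ) N p
        (ModularCurve.JZero N) := by
  letI := ModularCurve.heckeModuleBar N
  intro inst ℓ hℓ hℓNp A hA
  have hℓN : ¬ ℓ ∣ N := fun h => hℓNp (h.mul_right p)
  have hℓp : ¬ ℓ ∣ p := fun h => hℓNp (h.mul_left N)
  haveI hchar := charP_residueField A hℓ hA
  by_cases h2 : ℓ = 2
  · haveI : NeZero 9 := ⟨by norm_num⟩
    have hℓNc : ¬ ℓ ∣ N * 9 := by
      intro h
      rcases hℓ.dvd_mul.1 h with h | h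
      · exact hℓN h
      · rw [h2] at h
        norm_num at h
    have hM : ((N * 9 : ℕ) : IsLocalRing.ResidueField ↥A) ≠ 0 := by
      rw [Ne, CharP.cast_eq_zero_iff (IsLocalRing.ResidueField ↥A) ℓ]
      exact hℓNc
    exact Main_aux hKL N p 9 hcomm ℓ hℓ hℓNc hℓp A hA
      (Igusa.genusFF_eq hU hL A (N * 9) hM (Or.inr (Dvd.intro_left N rfl))) inst
  · haveI : NeZero 4 := ⟨by norm_num⟩
    have hℓNc : ¬ ℓ ∣ N * 4 := by
      intro h
      rcases hℓ.dvd_mul.1 h with h | h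
      · exact hℓN h
      · have h4 : ℓ ∣ 2 ^ 2 := by norm_num; exact h
        exact h2 ((Nat.prime_dvd_prime_iff_eq hℓ Nat.prime_two).1 (hℓ.dvd_of_dvd_pow h4))
    have hM : ((N * 4 : ℕ) : IsLocalRing.ResidueField ↥A) ≠ 0 := by
      rw [Ne, CharP.cast_eq_zero_iff (IsLocalRing.ResidueField ↥A) ℓ]
      exact hℓNc
    exact Main_aux hKL N p 4 hcomm ℓ hℓ hℓNc hℓp A hA
      (Igusa.genusFF_eq hU hL A (N * 4) hM (Or.inl (Dvd.intro_left N rfl))) inst

end Fermat.Agent.S37
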