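import Fermat.Agent.S37.HeckeDiv
import Fermat.Agent.GAL.Hecke.NormFormulaCore

/-!
# S37, leaf H4: the degree of `β` and of the Hecke correspondence.
-/

set_option autoImplicit false

namespace Fermat.Agent.S37

open AlgebraicCurve ModularCurve Fermat.Agent.Lib.RR Fermat.Agent.GAL Fermat.Agent.GAL.Hecke
  Fermat.Agent.S24

/-- the degree along `φ` does not change under composition with an involution of the target. -/
theorem BetaDeg_finrankAlong_comp {K F F' : Type*} [Field K] [Field F] [Field F'] [Algebra K F]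
    [Algebra K F'] (φ : F →ₐ[K] F') (w : F' →ₐ[K] F') (hw : w.comp w = AlgHom.id K F') :
    finrankAlong K (w.comp φ) = finrankAlong K φ := by
  have hww : ∀ x, w (w x) = x := fun x => DFunLike.congr_fun hw x
  let e : F' ≃+* F' :=
    { toFun := w
      invFun := w
      left_inv := hww
      right_inv := hww
      map_mul' := map_mul w
      map_add' := map_add w }
  unfold finrankAlong
  exact (@Algebra.finrank_eq_of_equiv_equiv F F' _ _ (algebraAlong φ) F F' _ _
    (algebraAlong (w.comp φ)) (RingEquiv.refl F) e (by ext x; rfl)).symm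

variable (N ℓ : ℕ) [NeZero N] [NeZero ℓ]

/-- `[F(Nℓ) : β F(N)] = ℓ + 1` (via the Atkin-Lehner automorphism `w` with `w ∘ α = β`, see
`GAL/Hecke/AtkinLehner.lean`, or via degrees over `K(j(q^ℓ))`). -/
theorem finrankAlong_beta (hℓ : ℓ.Prime) (hℓN : ¬ ℓ ∣ N) :
    finrankAlong Kbar (heckeBetaBar Kbar N ℓ) = ℓ + 1 := by
  obtain ⟨w, h1, -, h3⟩ := Fermat.Agent.GAL.AtkinLehner.exists_atkinLehner N ℓ hℓ hℓN
  rw [← h1, BetaDeg_finrankAlong_comp _ w h3, finrankAlong_alpha N ℓ hℓ hℓN]

theorem degree_heckeDiv (hℓ : ℓ.Prime) (hℓN : ¬ ℓ ∣ N) (D : Divisor Kbar (FN N)) :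
    Divisor.degree (heckeDiv N ℓ D) = ((ℓ : ℤ) + 1) * Divisor.degree D := by
  have h1 := Divisor.degree_correspondence (heckeBetaBar Kbar N ℓ) (heckeAlphaBar Kbar N ℓ)
    (integral_beta N ℓ) (integral_alpha N ℓ)
    (fundamentalIdentityAlong _ (integral_beta N ℓ) (finiteAlong_beta N ℓ)) D
  rw [finrankAlong_beta N ℓ hℓ hℓN] at h1
  push_cast at h1
  exact h1

end Fermat.Agent.S37
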