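import Fermat.Agent.S37.NormFormula
import Fermat.Agent.GAL.Model
import Fermat.Prelude.Def_AlgebraicCurve_Correspondence
import Fermat.Prelude.Def_AlgebraicCurve_BaseChangeGalois

/-!
# S37, leaf H2a: fundamental identity and norm formula along an algebra homomorphism.
-/

set_option autoImplicit false
set_option linter.style.haveILetI false

namespace Fermat.Agent.S37

open AlgebraicCurve ModularCurve Fermat.Agent.Lib.RR Fermat.Agent.GAL Fermat.Agent.GAL.Hecke
  Fermat.Agent.S24

/-! ### generalities along an algebra homomorphism (leaf H2) -/

section Along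

variable {K F F' : Type*} [Field K] [IsAlgClosed K] [CharZero K] [Field F] [Field F'] [Algebra K F]
  [Algebra K F'] [Lib.RR.IsFF K F] [Lib.RR.IsFF K F']

theorem fundamentalIdentityAlong (φ : F →ₐ[K] F') (hφ : φ.toRingHom.IsIntegral)
    (hfin : FiniteAlong K φ) : FundamentalIdentityAlong K φ hφ := by
  letI := algebraAlong φ
  haveI := isScalarTower_along φ
  haveI : Module.Finite F F' := hfin
  haveI : CharZero F := charZero_of_injective_algebraMap (algebraMap K F).injective
  haveI : Algebra.IsSeparable F F' := Algebra.IsAlgebraic.isSeparable_of_perfectField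
  exact GAL.FF.instFundamentalIdentity

theorem normFormulaAlong (φ : F →ₐ[K] F') (hfin : FiniteAlong K φ) :
    NormFormulaAlong K φ hfin := by
  letI := algebraAlong φ
  haveI := isScalarTower_along φ
  haveI : Module.Finite F F' := hfin
  haveI : CharZero F := charZero_of_injective_algebraMap (algebraMap K F).injective
  haveI : Algebra.IsSeparable F F' := Algebra.IsAlgebraic.isSeparable_of_perfectField
  exact pushforwardNormFormula

theorem pushforwardAlong_divOf (φ : F →ₐ[K] F') (hφ : φ.toRingHom.IsIntegral)
    (hfin : FiniteAlong K φ) (u : F') (hu : u ≠ 0) :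
    Divisor.pushforwardAlong φ hφ (divOf u) = divOf (normAlong φ u) := by
  have H := normFormulaAlong φ hfin
  letI := algebraAlong φ
  haveI := isScalarTower_along φ
  haveI := isIntegral_along φ hφ
  haveI : Module.Finite F F' := hfin
  exact Divisor.pushforward_eq_of_normFormula H hu (fun w => divOf_apply u w)
    (fun v => divOf_apply _ v)

end Along

end Fermat.Agent.S37
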