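import Fermat.Agent.S37.NormFormula
import Fermat.Agent.GAL.Model
import Fermat.Prelude.Def_AlgebraicCurve_Correspondence
import Fermat.Prelude.Def_AlgebraicCurve_BaseChangeGalois

/-!
# S37, leaf H2b: pullback and pushforward of divisors along an algebra homomorphism.
-/

set_option autoImplicit false
set_option linter.unusedSectionVars false

namespace Fermat.Agent.S37

open AlgebraicCurve ModularCurve Fermat.Agent.Lib.RR Fermat.Agent.GAL Fermat.Agent.GAL.Hecke
  Fermat.Agent.S24

/-! ### generalities along an algebra homomorphism (leaf H2) -/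

section Along

variable {K F F' : Type*} [Field K] [IsAlgClosed K] [CharZero K] [Field F] [Field F'] [Algebra K F]
  [Algebra K F'] [Lib.RR.IsFF K F] [Lib.RR.IsFF K F']

theorem pullbackAlong_nonneg (φ : F →ₐ[K] F') (hφ : φ.toRingHom.IsIntegral) {D : Divisor K F}
    (h : 0 ≤ D) : 0 ≤ Divisor.pullbackAlong φ hφ D := by
  intro w
  rw [Divisor.pullbackAlong_apply]
  exact mul_nonneg (Nat.cast_nonneg _) (h _)

theorem pushforwardAlong_nonneg (φ : F →ₐ[K] F') (hφ : φ.toRingHom.IsIntegral) {D : Divisor K F'}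
    (h : 0 ≤ D) : 0 ≤ Divisor.pushforwardAlong φ hφ D := by
  classical
  rw [← Finsupp.sum_single D, Finsupp.sum, map_sum]
  refine Finset.sum_nonneg fun w _ => ?_
  rw [Divisor.pushforwardAlong_single]
  intro v
  rw [Finsupp.single_apply]
  split_ifs
  · exact mul_nonneg (h w) (Nat.cast_nonneg _)
  · exact le_rfl

theorem pullbackAlong_divOf (φ : F →ₐ[K] F') (hφ : φ.toRingHom.IsIntegral) (u : F) :
    Divisor.pullbackAlong φ hφ (divOf u) = divOf (φ u) := by
  ext w
  rw [Divisor.pullbackAlong_apply, divOf_apply, divOf_apply, Place.ord_restrictAlong φ hφ]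

/-- for a place `w` of `F'` only one place `P` of `F` has `w` in the support of `φ^* P`. -/
theorem pullbackAlong_pt_apply_ne_zero (φ : F →ₐ[K] F') (hφ : φ.toRingHom.IsIntegral)
    (P : Place K F) (w : Place K F') (h : Divisor.pullbackAlong φ hφ (pt P) w ≠ 0) :
    w.restrictAlong φ hφ = P := by
  classical
  rw [Divisor.pullbackAlong_apply, Finsupp.single_apply] at h
  by_contra hne
  rw [if_neg (fun e => hne e.symm), mul_zero] at h
  exact h rfl

/-- for a place `v` of `F` only finitely many places `w` of `F'` have `v` in the support of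
`φ_* w`. -/
theorem finite_pushforwardAlong_pt_apply_ne_zero (φ : F →ₐ[K] F') (hφ : φ.toRingHom.IsIntegral)
    (v : Place K F) : {w : Place K F' | Divisor.pushforwardAlong φ hφ (pt w) v ≠ 0}.Finite := by
  classical
  refine (Place.fiberAlong φ hφ v).finite_toSet.subset fun w hw => ?_
  rw [Finset.mem_coe, Place.mem_fiberAlong]
  have hw' : Divisor.pushforwardAlong φ hφ (pt w) v ≠ 0 := hw
  rw [Divisor.pushforwardAlong_single, Finsupp.single_apply] at hw'
  by_contra hne
  rw [if_neg hne] at hw'
  exact hw' rfl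

omit [IsAlgClosed K] [CharZero K] [Lib.RR.IsFF K F] [Lib.RR.IsFF K F'] in
theorem AlongB_mem_restrictAlong (φ : F →ₐ[K] F') (hφ : φ.toRingHom.IsIntegral) (w : Place K F')
    (f : F) : f ∈ (w.restrictAlong φ hφ).toValuationSubring ↔ φ f ∈ w.toValuationSubring :=
  Iff.rfl

omit [IsAlgClosed K] [CharZero K] [Lib.RR.IsFF K F] [Lib.RR.IsFF K F'] in
theorem AlongB_ord_inv_smul {E : Type*} [Field E] [Algebra K E] (g : SemilinearAut K E)
    (v : Place K E) (f : E) : (g⁻¹ • v).ord f = v.ord (g • f) := by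
  have := SemilinearAut.ord_smul g⁻¹ v (g • f)
  rwa [inv_smul_smul] at this

omit [IsAlgClosed K] [CharZero K] [Lib.RR.IsFF K F] [Lib.RR.IsFF K F'] in
theorem AlongB_restrictAlong_inv_smul (φ : F →ₐ[K] F') (hφ : φ.toRingHom.IsIntegral)
    (g : SemilinearAut K F) (g' : SemilinearAut K F') (h : ∀ f : F, φ (g • f) = g' • φ f)
    (w : Place K F') : (g'⁻¹ • w).restrictAlong φ hφ = g⁻¹ • w.restrictAlong φ hφ := by
  apply Place.ext
  ext f
  rw [AlongB_mem_restrictAlong, SemilinearAut.smul_toValuationSubring,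
    SemilinearAut.smul_toValuationSubring, ValuationSubring.mem_pointwise_smul_iff_inv_smul_mem,
    ValuationSubring.mem_pointwise_smul_iff_inv_smul_mem, inv_inv, inv_inv,
    AlongB_mem_restrictAlong, h]

omit [IsAlgClosed K] [CharZero K] [Lib.RR.IsFF K F] [Lib.RR.IsFF K F'] in
theorem AlongB_ramificationIndexAlong_inv_smul (φ : F →ₐ[K] F') (hφ : φ.toRingHom.IsIntegral)
    (g : SemilinearAut K F) (g' : SemilinearAut K F') (h : ∀ f : F, φ (g • f) = g' • φ f)
    (w : Place K F') :
    Place.ramificationIndexAlong φ (g'⁻¹ • w) = Place.ramificationIndexAlong φ w := by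
  obtain ⟨π, hπ⟩ := IsDiscreteValuationRing.exists_irreducible
    (g⁻¹ • w.restrictAlong φ hφ).toValuationSubring
  have hπord : (g⁻¹ • w.restrictAlong φ hφ).ord (π : F) = 1 := Place.ord_coe_irreducible _ hπ
  have h1 := Place.ord_restrictAlong φ hφ (g'⁻¹ • w) (π : F)
  rw [AlongB_restrictAlong_inv_smul φ hφ g g' h, hπord, mul_one, AlongB_ord_inv_smul, ← h,
    Place.ord_restrictAlong φ hφ, ← AlongB_ord_inv_smul, hπord, mul_one] at h1
  exact_mod_cast h1.symm

/-- Compatibility of pullback with semilinear automorphisms. -/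
theorem pullbackAlong_smul (φ : F →ₐ[K] F') (hφ : φ.toRingHom.IsIntegral)
    (g : SemilinearAut K F) (g' : SemilinearAut K F') (h : ∀ f : F, φ (g • f) = g' • φ f)
    (D : Divisor K F) :
    Divisor.pullbackAlong φ hφ (g • D) = g' • Divisor.pullbackAlong φ hφ D := by
  ext w
  rw [Divisor.pullbackAlong_apply, SemilinearAut.divisor_smul_apply,
    SemilinearAut.divisor_smul_apply, Divisor.pullbackAlong_apply,
    AlongB_restrictAlong_inv_smul φ hφ g g' h, AlongB_ramificationIndexAlong_inv_smul φ hφ g g' h]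

end Along

end Fermat.Agent.S37
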