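import Fermat.Prelude.Def_ModularCurve_HeckeModule

/-!
# S37, leaf A: the abstract specialization lemma.

`J' := J ⧸ W`, `W := {x | ∀ T : HeckeAlg, ρ (T • x) = 0}`, `sp := mk`, `F := ` the map induced by one
Frobenius element.
-/

set_option autoImplicit false

namespace Fermat.Agent.S37

open ModularCurve

/-- The largest Hecke submodule contained in the kernel of `ρ`. -/
def heckeKer {J : Type} [AddCommGroup J] [Module HeckeAlg J] {Γ : Type*} [AddCommGroup Γ]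
    (ρ : J →+ Γ) : Submodule HeckeAlg J where
  carrier := {x | ∀ T : HeckeAlg, ρ (T • x) = 0}
  add_mem' := by
    intro a b ha hb T
    rw [smul_add, map_add, ha T, hb T, add_zero]
  zero_mem' := by
    intro T
    rw [smul_zero, map_zero]
  smul_mem' := by
    intro c x hx T
    rw [smul_smul]
    exact hx _

theorem mem_heckeKer {J : Type} [AddCommGroup J] [Module HeckeAlg J] {Γ : Type*} [AddCommGroup Γ]
    (ρ : J →+ Γ) (x : J) : x ∈ heckeKer ρ ↔ ∀ T : HeckeAlg, ρ (T • x) = 0 := Iff.rfl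

/-- Let `ρ : J → Γ` be a homomorphism which kills inertia, intertwines Frobenius elements with `Φ`,
satisfies the Eichler-Shimura relation `ρ ∘ T_ℓ = (Φ + ℓ Φ⁻¹) ∘ ρ` and is injective on `p`-power
torsion.  Then a specialization exists.

Proof.  `W := {x | ∀ T, ρ (T • x) = 0}` is a `HeckeAlg`-submodule. `J' := J ⧸ W`, `sp := W.mkQ`.
Fix a Frobenius element `σ₀`; `σ₀ • W ⊆ W` since `ρ (T • σ₀ • x) = ρ (σ₀ • T • x) = Φ (ρ (T • x))`;
`F := ` the induced map (`QuotientAddGroup.map` / `Submodule.mapQ` of the additive map `σ₀ • ·`).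
* `hecke_comm`: `mkQ` is linear.
* `inertia_comm`: `ρ (T • (σ • x - x)) = ρ (σ • T • x) - ρ (T • x) = 0`.
* `frobenius_comm`: `ρ (T • (σ • x - σ₀ • x)) = Φ (ρ (T • x)) - Φ (ρ (T • x)) = 0`.
* `injective_torsion`: `x ∈ W` gives `ρ x = ρ (1 • x) = 0`.
* relation: with `x' = T • x`: `ρ (σ₀ • σ₀ • x' - T_ℓ • σ₀ • x' + ℓ • x')
    = Φ (Φ (ρ x')) - (Φ (Φ (ρ x')) + ℓ • Ψ (Φ (ρ x'))) + ℓ • ρ x' = 0`. -/
theorem exists_specialization {K L : Type*} [Field K] [Field L] [Algebra K L] (p : ℕ)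
    (J : Type) [AddCommGroup J] [Module HeckeAlg J] [DistribMulAction (L ≃ₐ[K] L) J]
    [SMulCommClass (L ≃ₐ[K] L) HeckeAlg J]
    (A : ValuationSubring L) (ℓ : ℕ) (hℓ : ℓ.Prime)
    {Γ : Type*} [AddCommGroup Γ] (ρ : J →+ Γ) (Φ Ψ : Γ →+ Γ) (hΨΦ : ∀ y, Ψ (Φ y) = y)
    (hI : ∀ σ ∈ A.inertiaSubgroupIn K, ∀ x : J, ρ (σ • x) = ρ x)
    (hF : ∀ σ : L ≃ₐ[K] L, A.IsFrobeniusAt σ ℓ → ∀ x : J, ρ (σ • x) = Φ (ρ x))
    (hT : ∀ x : J, ρ (heckeGen ⟨ℓ, hℓ⟩ • x) = Φ (ρ x) + ℓ • Ψ (ρ x))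
    (hinj : ∀ x : J, (∃ n : ℕ, p ^ n • x = 0) → ρ x = 0 → x = 0)
    (hex : ∃ σ : L ≃ₐ[K] L, A.IsFrobeniusAt σ ℓ) :
    ∃ (J' : Type) (_ : AddCommGroup J') (_ : Module HeckeAlg J') (sp : J →+ J') (F : J' →+ J'),
      IsSpecialization (K := K) p J J' A ℓ sp F ∧ SpecialFibreRelation J' ℓ hℓ F := by
  obtain ⟨σ₀, hσ₀⟩ := hex
  set W : Submodule HeckeAlg J := heckeKer ρ with hW
  -- the `HeckeAlg`-linear map `σ₀ • ·`
  let f : J →ₗ[HeckeAlg] J :=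
    { toFun := fun x => σ₀ • x
      map_add' := fun x y => smul_add σ₀ x y
      map_smul' := fun T x => smul_comm σ₀ T x }
  have hf : ∀ x, f x = σ₀ • x := fun _ => rfl
  have hstab : W ≤ W.comap f := by
    intro x hx T
    change ρ (T • σ₀ • x) = 0
    rw [← smul_comm σ₀ T x, hF σ₀ hσ₀, hx T, map_zero]
  let F : (J ⧸ W) →ₗ[HeckeAlg] (J ⧸ W) := W.mapQ W f hstab
  have hFmk : ∀ x : J, F (W.mkQ x) = W.mkQ (σ₀ • x) := fun x => by
    simp only [F, Submodule.mkQ_apply, Submodule.mapQ_apply, hf]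
  have hmk0 : ∀ x : J, W.mkQ x = 0 ↔ ∀ T : HeckeAlg, ρ (T • x) = 0 := fun x => by
    rw [Submodule.mkQ_apply, Submodule.Quotient.mk_eq_zero]
    exact Iff.rfl
  have hmkeq : ∀ x y : J, (∀ T : HeckeAlg, ρ (T • x) = ρ (T • y)) → W.mkQ x = W.mkQ y := by
    intro x y h
    rw [← sub_eq_zero, ← map_sub, hmk0]
    intro T
    rw [smul_sub, map_sub, h T, sub_self]
  refine ⟨J ⧸ W, inferInstance, inferInstance, W.mkQ.toAddMonoidHom, F.toAddMonoidHom, ?_, ?_⟩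
  · refine ⟨?_, ?_, ?_, ?_⟩
    · intro T x
      exact W.mkQ.map_smul T x
    · intro σ hσ x
      change W.mkQ (σ • x) = W.mkQ x
      apply hmkeq
      intro T
      rw [← smul_comm σ T x, hI σ hσ]
    · intro σ hσ x
      change W.mkQ (σ • x) = F (W.mkQ x)
      rw [hFmk]
      apply hmkeq
      intro T
      rw [← smul_comm σ T x, ← smul_comm σ₀ T x, hF σ hσ, hF σ₀ hσ₀]
    · intro x hx h0
      have h0' : W.mkQ x = 0 := h0
      rw [hmk0] at h0'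
      apply hinj x hx
      simpa using h0' 1
  · intro y
    obtain ⟨x, rfl⟩ := W.mkQ_surjective y
    change F (F (W.mkQ x)) - heckeGen ⟨ℓ, hℓ⟩ • F (W.mkQ x) + ℓ • W.mkQ x = 0
    rw [hFmk, hFmk, ← map_smul, ← map_nsmul, ← map_sub, ← map_add, hmk0]
    intro T
    have e1 : T • (σ₀ • σ₀ • x - heckeGen ⟨ℓ, hℓ⟩ • σ₀ • x + ℓ • x)
        = σ₀ • σ₀ • (T • x) - heckeGen ⟨ℓ, hℓ⟩ • σ₀ • (T • x) + ℓ • (T • x) := by
      rw [smul_add, smul_sub, smul_comm T (heckeGen ⟨ℓ, hℓ⟩) (σ₀ • x), ← smul_comm σ₀ T (σ₀ • x),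
        ← smul_comm σ₀ T x, smul_comm T ℓ x]
    rw [e1, map_add, map_sub, hF σ₀ hσ₀, hF σ₀ hσ₀, hT, hF σ₀ hσ₀, hΨΦ, map_nsmul]
    abel

end Fermat.Agent.S37
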