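import Fermat.Agent.GAL.Hecke.PlacesAbove
import Fermat.Agent.GAL.FF.RH.Fibre
import Fermat.Agent.S19.Weil.NormOrd

/-!
# S37, leaf H1: the norm formula `ord_v (N f) = ∑_{w ∣ v} f(w ∣ v) ord_w f`.

Both statements are proved (with the same hypotheses) in `S19/Weil/NormOrd.lean`; this file only
re-exports them under the names used by the S37 skeleton.
-/

set_option autoImplicit false

namespace Fermat.Agent.S37

open AlgebraicCurve Fermat.Agent.Lib.RR

variable {K F F' : Type*} [Field K] [IsAlgClosed K] [Field F] [Field F'] [Algebra K F]
  [Algebra K F'] [Algebra F F'] [IsScalarTower K F F'] [FiniteDimensional F F']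
  [Algebra.IsSeparable F F'] [IsFF K F] [IsFF K F']

/-- all inertia degrees are one (`K` algebraically closed). -/
theorem inertiaDeg_eq_one (w : Place K F') : w.inertiaDeg F = 1 :=
  Fermat.Agent.S19.Weil.inertiaDeg_eq_one w

/-- The norm formula, see `S19.Weil.ord_norm` and `S19.Weil.pushforwardNormFormula`. -/
theorem pushforwardNormFormula : Divisor.PushforwardNormFormula K F F' :=
  Fermat.Agent.S19.Weil.pushforwardNormFormula

end Fermat.Agent.S37
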