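import Fermat.Agent.S37.BPF

/-!
# S37, leaf P2: the positivity lemma.
-/

set_option autoImplicit false

namespace Fermat.Agent.S37

open AlgebraicCurve Fermat.Agent.Lib.RR Fermat.Agent.GAL.RED

variable {K F : Type*} [Field K] [Field F] [Algebra K F] [IsFF K F] [IsAlgClosed K]

/-- A finitely supported integer function with nonnegative values and total sum `0` vanishes. -/
theorem finsupp_eq_zero_of_nonneg_of_sum {Y : Type*} (a : Y →₀ ℤ) (h0 : ∀ y, 0 ≤ a y)
    (hs : (a.sum fun _ n => n) = 0) : a = 0 := by
  classical
  have h := (Finset.sum_eq_zero_iff_of_nonneg (s := a.support) (f := fun y => a y)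
    (fun y _ => h0 y)).mp hs
  ext y
  by_cases hy : y ∈ a.support
  · exact h y hy
  · simpa using hy

/-- (P2) **Positivity lemma.**  Two additive maps `S, T` from divisors to a free abelian group
`Y →₀ ℤ` which agree on principal divisors and have the same total degree are equal, provided `S`
is positive and every class of large degree has an effective representative `D'` with
`T D' y = 0` (`y` given).

Proof. `Ψ := S - T` vanishes on principal divisors.  If `d₀ ≤ deg D` then for every `y`:
`Ψ D y = Ψ (D + div f) y = S (D + div f) y ≥ 0`; the sum of all `Ψ D y` is `0`; so `Ψ D = 0`.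
An arbitrary `D` is `(D + n P₀) - n P₀` with both terms of degree `≥ d₀`. -/
theorem eq_of_positive {Y : Type*} (S T : Divisor K F →+ (Y →₀ ℤ))
    (hS : ∀ D : Divisor K F, 0 ≤ D → 0 ≤ S D)
    (hdeg : ∀ D : Divisor K F, ((S D).sum fun _ n => n) = (T D).sum fun _ n => n)
    (hprin : ∀ u : F, u ≠ 0 → S (divOf u) = T (divOf u))
    (d₀ : ℤ)
    (hav : ∀ (y : Y) (D : Divisor K F), d₀ ≤ Divisor.degree D →
      ∃ f : F, f ≠ 0 ∧ 0 ≤ D + divOf f ∧ T (D + divOf f) y = 0) :
    S = T := by
  classical
  -- large degree
  have hbig : ∀ D : Divisor K F, d₀ ≤ Divisor.degree D → S D = T D := by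
    intro D hD
    rw [← sub_eq_zero]
    apply finsupp_eq_zero_of_nonneg_of_sum
    · intro y
      obtain ⟨f, hf, hpos, hT0⟩ := hav y D hD
      have h1 : S (D + divOf f) y - T (D + divOf f) y = S D y - T D y := by
        rw [map_add, map_add, hprin f hf]
        simp
      have h2 : 0 ≤ S (D + divOf f) y := hS _ hpos y
      rw [Finsupp.sub_apply, ← h1, hT0]
      simpa using h2
    · have h3 : ((S D - T D).sum fun _ n => n)
          = ((S D).sum fun _ n => n) - ((T D).sum fun _ n => n) :=
        Finsupp.sum_sub_index (h := fun _ n => n) (fun _ _ _ => rfl)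
      rw [h3, hdeg D, sub_self]
  obtain ⟨P⟩ := IsPreFF.nonempty (K := K) (F := F)
  refine DFunLike.ext _ _ fun D => ?_
  -- choose `n` large
  set n : ℕ := (d₀ - Divisor.degree D).toNat + d₀.toNat with hn
  have hdn : Divisor.degree (n • pt P) = n := by
    rw [map_nsmul, degree_pt, deg_eq_one]
    simp
  have h1 : d₀ ≤ Divisor.degree (n • pt P) := by
    rw [hdn, hn]
    have := Int.self_le_toNat d₀
    push_cast
    omega
  have h2 : d₀ ≤ Divisor.degree (D + n • pt P) := by
    rw [map_add, hdn, hn]
    have := Int.self_le_toNat (d₀ - Divisor.degree D)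
    push_cast
    omega
  have e1 := hbig _ h1
  have e2 := hbig _ h2
  rw [map_add, map_add, e1] at e2
  exact add_right_cancel e2

end Fermat.Agent.S37
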