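import Fermat.Agent.S37.BetaDeg
import Fermat.Agent.S37.Positivity
import Fermat.Agent.GAL.Hecke.NormFormula

/-!
# S37, leaf C: pullback of divisors from level `N` to level `N * c`; it commutes with `T_ℓ` and with
the Galois action.
-/

set_option autoImplicit false

namespace Fermat.Agent.S37

open AlgebraicCurve ModularCurve Fermat.Agent.Lib.RR Fermat.Agent.GAL Fermat.Agent.GAL.Hecke
  Fermat.Agent.S24

variable (N c : ℕ) [NeZero N] [NeZero c]

/-- `π^* : Div (FN N) → Div (FN (N * c))`. -/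
noncomputable def pull : Divisor Kbar (FN N) →+ Divisor Kbar (FN (N * c)) :=
  Divisor.pullbackAlong (heckeAlphaBar Kbar N c) (integral_alpha N c)

theorem pull_divOf (u : FN N) : pull N c (divOf u) = divOf (heckeAlphaBar Kbar N c u) :=
  pullbackAlong_divOf _ _ u

theorem pull_nonneg {D : Divisor Kbar (FN N)} (h : 0 ≤ D) : 0 ≤ pull N c D :=
  pullbackAlong_nonneg _ _ h

theorem degree_pull (D : Divisor Kbar (FN N)) :
    Divisor.degree (pull N c D) =
      (finrankAlong Kbar (heckeAlphaBar Kbar N c) : ℤ) * Divisor.degree D :=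
  Divisor.degree_pullbackAlong _ _
    (fundamentalIdentityAlong _ _ (finiteAlong_alpha N c)) D

theorem pull_smul (σ : Kbar ≃ₐ[ℚ] Kbar) (D : Divisor Kbar (FN N)) :
    pull N c (arithmeticGalois (modularFunctionFieldFull N) σ • D) =
      arithmeticGalois (modularFunctionFieldFull (N * c)) σ • pull N c D :=
  pullbackAlong_smul _ _ _ _ (fun f => Subtype.ext (by
    rw [coe_heckeAlphaBar, coe_arithmeticGalois_smul, coe_arithmeticGalois_smul,
      coe_heckeAlphaBar])) D

/-- The Hecke norm does not depend on the level (both sides have the same `q`-expansion by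
`Hecke.qExpand_heckeNorm`; `qExpand Kbar ℓ` is injective). -/
theorem alpha_heckeNorm (ℓ : ℕ) [NeZero ℓ] (hℓ : ℓ.Prime) (hℓNc : ¬ ℓ ∣ N * c) (u : FN N) :
    heckeAlphaBar Kbar N c (heckeNorm Kbar N ℓ u) =
      heckeNorm Kbar (N * c) ℓ (heckeAlphaBar Kbar N c u) := by
  have hℓN : ¬ ℓ ∣ N := fun h => hℓNc (h.mul_right c)
  obtain ⟨ζ₀, hζ₀⟩ : ∃ ζ : Kbar, IsPrimitiveRoot ζ ℓ :=
    HasEnoughRootsOfUnity.exists_primitiveRoot Kbar ℓ
  let ζ : Kbarˣ := hζ₀.isUnit hℓ.ne_zero |>.unit
  have hζ : IsPrimitiveRoot ζ ℓ := IsPrimitiveRoot.coe_units_iff.mp hζ₀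
  apply Subtype.ext
  apply qExpand_injective (R := Kbar) (N := ℓ)
  rw [coe_heckeAlphaBar, qExpand_heckeNorm N ℓ hℓ hℓN ζ hζ u,
    qExpand_heckeNorm (N * c) ℓ hℓ hℓNc ζ hζ _, coe_heckeAlphaBar]

/-- expansion of an additive map on divisors along the points. -/
theorem Pull_apply_eq_sum {K F Y : Type*} [Field K] [Field F] [Algebra K F]
    (T : Divisor K F →+ (Y →₀ ℤ)) (E : Divisor K F) (y : Y) :
    T E y = E.sum fun P n => n * T (pt P) y := by
  induction E using Finsupp.induction_linear with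
  | zero => simp
  | add D E hD hE =>
    rw [map_add, Finsupp.add_apply, hD, hE, Finsupp.sum_add_index']
    · intro P; simp
    · intro P m n; ring
  | single P n =>
    rw [Finsupp.sum_single_index (by simp)]
    have h : (Finsupp.single P n : Divisor K F) = n • pt P := by
      rw [Finsupp.smul_single, smul_eq_mul, mul_one]
    rw [h, map_zsmul, Finsupp.smul_apply, smul_eq_mul]

/-- only finitely many points `P` of level `N` contribute to `T_ℓ π^* P` at a given place. -/
theorem Pull_finite (ℓ : ℕ) [NeZero ℓ] (y : Place Kbar (FN (N * c))) :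
    {P : Place Kbar (FN N) | heckeDiv (N * c) ℓ (pull N c (pt P)) y ≠ 0}.Finite := by
  refine ((finite_heckeDiv_pt_apply_ne_zero (N * c) ℓ y).image
    (fun w => w.restrictAlong (heckeAlphaBar Kbar N c) (integral_alpha N c))).subset ?_
  intro P hP
  change heckeDiv (N * c) ℓ (pull N c (pt P)) y ≠ 0 at hP
  rw [Pull_apply_eq_sum (heckeDiv (N * c) ℓ) (pull N c (pt P)) y] at hP
  obtain ⟨w, -, hw⟩ := Finset.exists_ne_zero_of_sum_ne_zero hP
  have h1 : pull N c (pt P) w ≠ 0 := left_ne_zero_of_mul hw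
  have h2 : heckeDiv (N * c) ℓ (pt w) y ≠ 0 := right_ne_zero_of_mul hw
  exact ⟨w, h2, pullbackAlong_pt_apply_ne_zero _ _ P w h1⟩

/-- `π^* T_ℓ = T_ℓ π^*` on divisors.
Proof: `eq_of_positive` with `S := π^* ∘ T_ℓ^{(N)}`, `T := T_ℓ^{(Nc)} ∘ π^*`, `d₀ := 2 g(FN N)`.
`hS`: `pull_nonneg`, `heckeDiv_nonneg`. `hdeg`: `degree_eq_sum`, `degree_pull`, `degree_heckeDiv` at
both levels. `hprin`: `divOf_heckeNorm` at both levels, `pull_divOf`, `alpha_heckeNorm`.
`hav`: given `y`, the set `Z` of places `P` of `FN N` with `T (pt P) y ≠ 0` is finite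
(`finite_heckeDiv_pt_apply_ne_zero` at level `N c` gives finitely many `w`; for each `w` only
`P = w.restrictAlong α` has `π^* (pt P) w ≠ 0`: `pullbackAlong_pt_apply_ne_zero`; expand
`T (pt P) y = ∑_w (π^* pt P) w * T_ℓ (pt w) y`); `exists_avoid D hD Z`. -/
theorem pull_heckeDiv (ℓ : ℕ) [NeZero ℓ] (hℓ : ℓ.Prime) (hℓNc : ¬ ℓ ∣ N * c)
    (D : Divisor Kbar (FN N)) :
    pull N c (heckeDiv N ℓ D) = heckeDiv (N * c) ℓ (pull N c D) := by
  have hℓN : ¬ ℓ ∣ N := fun h => hℓNc (h.mul_right c)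
  have key : (pull N c).comp (heckeDiv N ℓ) = (heckeDiv (N * c) ℓ).comp (pull N c) := by
    refine eq_of_positive (K := Kbar) (F := FN N) (Y := Place Kbar (FN (N * c))) _ _ ?_ ?_ ?_
      (2 * (genusFF Kbar (FN N) : ℤ)) ?_
    · intro D hD
      exact pull_nonneg N c (heckeDiv_nonneg N ℓ hD)
    · intro D
      rw [AddMonoidHom.comp_apply, AddMonoidHom.comp_apply]
      have e1 := GAL.RED.degree_eq_sum (K := Kbar) (F := FN (N * c)) (pull N c (heckeDiv N ℓ D))
      have e2 := GAL.RED.degree_eq_sum (K := Kbar) (F := FN (N * c))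
        (heckeDiv (N * c) ℓ (pull N c D))
      rw [← e1, ← e2, degree_pull, degree_heckeDiv N ℓ hℓ hℓN, degree_heckeDiv (N * c) ℓ hℓ hℓNc,
        degree_pull]
      ring
    · intro u hu
      have hαu : heckeAlphaBar Kbar N c u ≠ 0 := by
        intro h0
        exact hu ((heckeAlphaBar Kbar N c).toRingHom.injective (h0.trans (map_zero _).symm))
      rw [AddMonoidHom.comp_apply, AddMonoidHom.comp_apply, ← (divOf_heckeNorm N ℓ u hu).2,
        pull_divOf, pull_divOf, ← (divOf_heckeNorm (N * c) ℓ _ hαu).2,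
        alpha_heckeNorm N c ℓ hℓ hℓNc u]
    · intro y D hD
      obtain ⟨f, hf, hpos, hZ⟩ := exists_avoid D hD (Pull_finite N c ℓ y).toFinset
      refine ⟨f, hf, hpos, ?_⟩
      rw [Pull_apply_eq_sum]
      refine Finset.sum_eq_zero fun P _ => ?_
      beta_reduce
      by_cases hP : heckeDiv (N * c) ℓ (pull N c (pt P)) y = 0
      · rw [AddMonoidHom.comp_apply, hP, mul_zero]
      · rw [hZ P ((Pull_finite N c ℓ y).mem_toFinset.mpr hP), zero_mul]
  exact DFunLike.congr_fun key D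

end Fermat.Agent.S37
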