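import Fermat.Agent.S37.BPF
import Fermat.Agent.GAL.RED.Disc

/-!
# S37, leaf G1: uniqueness of the reduction map on points.
-/

set_option autoImplicit false

namespace Fermat.Agent.S37

open AlgebraicCurve Fermat.Agent.Lib.RR Fermat.Agent.GAL.RED

variable {K F k Fb : Type*} [Field K] [Field F] [Algebra K F] [Field k] [Field Fb] [Algebra k Fb]

variable [IsFF K F] [IsAlgClosed K] [IsFF k Fb] [IsAlgClosed k]

/-- (G1) The reduction map on points is unique.

Proof. Fix `P₀`, `D := (3 g) • pt P₀`. By `redSub_L` for `r` and `r'`: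
`L̄(r_* D) = L̄(r'_* D)` and the same for `D + pt P`; degrees are `≥ 3 g ≥ 2 ḡ`
(`degree_mapDomain`), so `eq_of_L_eq` gives `r_* D = r'_* D`, `r_* (D + P) = r'_* (D + P)`;
subtract: `pt (r P) = pt (r' P)` (`Finsupp.mapDomain_add`, `mapDomain_single`,
`Finsupp.single_left_inj`). -/
theorem IsRedMap.unique {R : RedData K F k Fb} {r r' : Place K F → Place k Fb}
    (hg : genusFF K F = genusFF k Fb) (hr : IsRedMap R r) (hr' : IsRedMap R r') : r = r' := by
  funext P
  have hn0 : (3 * (genusFF K F : ℤ) + 1) ≠ 0 := by positivity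
  have hdeg : Divisor.degree (Finsupp.single P (3 * (genusFF K F : ℤ) + 1) : Divisor K F)
      = 3 * (genusFF K F : ℤ) + 1 := by
    rw [Divisor.degree_single, deg_eq_one]
    simp
  have h1 := hr.redSub_L (Finsupp.single P (3 * (genusFF K F : ℤ) + 1)) (by rw [hdeg]; omega)
  have h2 := hr'.redSub_L (Finsupp.single P (3 * (genusFF K F : ℤ) + 1)) (by rw [hdeg]; omega)
  rw [Finsupp.mapDomain_single] at h1 h2
  have hd : ∀ Q : Place k Fb, 2 * (genusFF k Fb : ℤ)
      ≤ Divisor.degree (Finsupp.single Q (3 * (genusFF K F : ℤ) + 1) : Divisor k Fb) := by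
    intro Q
    rw [Divisor.degree_single, deg_eq_one, ← hg]
    simp only [Nat.cast_one, mul_one]
    omega
  have h3 := eq_of_L_eq (hd (r P)) (hd (r' P)) (h1.symm.trans h2)
  exact (Finsupp.single_left_inj hn0).1 h3

end Fermat.Agent.S37
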